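/-
S56 / TAN, leaf B3 (helper2; blueprint `moonshots` row 50, §3.B): **the cocycle of a lift of `ρ̄` to the
dual numbers `k[ε]`**, with values in helper23's `M = ad⁰ρ̄` (`S56/Ad/Ad0.lean`).

* matrices over `k[ε]`: `fstM`, `sndM` (constant part and `ε`-part), `sndM_mul`, `mkM F S = F + εS`,
  `unitOf X = 1 + εX`, `fst_det`, `snd_det`;
* for a matrix representation `M : G →* M₂(k[ε])`: `redM M` (reduction mod `ε`),
  `cocMat M σ = (∂M/∂ε)(σ)·M̄(σ)⁻¹`, so that `M σ = (1 + ε c σ) M̄ σ` (`eq_unitOf_mul`);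
  **`cocMat_mul`** (cocycle identity `c(στ) = c σ + M̄σ·c τ·M̄σ⁻¹`), `snd_det_eq` (the trace of `c` is
  the logarithmic derivative of `det`), `trace_cocMat_eq_zero`; **`unitOf_mul_eq_of_cohomologous`**
  (`c − c' = σ•X − X` ⇒ `1 + εX` intertwines `M` and `M'`) and its converse;
* `snd_det_eq_zero` : a lift with `DetIsCyclotomic p` (and `p = 0` in `k`) has determinant in `k`
  (uses `N4/FrobDensity/CycloAdic.cycloCharAdic_spec` to act on `μ_p` by a power);
  `det_eq_of_equiv`, `detIsCyclotomic_of_equiv`;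
* `Model ρbar ρA` : a matrix model of a lift `ρA : GaloisRepAdic k[ε]` of `ρ̄` (continuous `M`,
  `redM M = resMat ρbar`, `ρA ≅ ofMat M`); **`nonempty_model`** (S53 `exists_strict_of_residual_isEquiv`;
  `strict_iff_redM`);
* **`Model.cocycle m p hpk hdet : cocycles₁ (ad0 ρbar p)`** (Mathlib's convention
  `c (σ τ) = σ • c τ + c σ`), `toEnd_cocycle`, `cocycle_eq_zero_of_rho_eq_one`,
  `cocycle_mul_of_rho_eq_one`, **`isLevelConstant_cocycle`** (prelude `IsLevelConstant₁`),
  `rho_eq_one_iff`, `det_eq`, `trace_eq`, `charpoly_eq`;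
* **`Model.isEquiv_of_cohomologous`** : if the cocycles of two lifts differ by the coboundary of some
  `x ∈ ad⁰ρ̄`, the lifts are equivalent (`GaloisRepAdic.IsEquiv`) — the injectivity input of the
  classifier of `Ring/Tangent.exists_surjective_of_classifier`.
-/
import Mathlib
import Fermat.Agent.S53.MatrixModel
import Fermat.Agent.S53.Tangent
import Fermat.Agent.S56.Ring.Tangent
import Fermat.Agent.S56.Ad.Ad0
import Fermat.Agent.N4.FrobDensity.CycloAdic
import Fermat.Prelude.Def_GaloisRep_LocalConditions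
import Fermat.Prelude.Def_GroupCohomology_ContinuousH2

set_option autoImplicit false
set_option linter.unusedSectionVars false
set_option linter.style.haveILetI false

noncomputable section

namespace Fermat.Agent.S56.Tan.Cocycle

open IsLocalRing Fermat.Agent.S53 Matrix

section DualMat

variable {k : Type} [Field k]

/-- the constant part of a matrix over the dual numbers -/
def fstM : M2 (DualNumber k) →+* M2 k :=
  ((TrivSqZeroExt.fstHom k k k : DualNumber k →ₐ[k] k) : DualNumber k →+* k).mapMatrix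

/-- the `ε`-part of a matrix over the dual numbers -/
def sndM (N : M2 (DualNumber k)) : M2 k := N.map TrivSqZeroExt.snd

@[simp] theorem fstM_apply (N : M2 (DualNumber k)) (i j : Fin 2) :
    fstM N i j = TrivSqZeroExt.fst (N i j) := rfl

@[simp] theorem sndM_apply (N : M2 (DualNumber k)) (i j : Fin 2) :
    sndM N i j = TrivSqZeroExt.snd (N i j) := rfl

theorem ext_fst_snd {N N' : M2 (DualNumber k)} (h1 : fstM N = fstM N') (h2 : sndM N = sndM N') :
    N = N' := by
  ext i j
  · exact congrFun (congrFun h1 i) j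
  · exact congrFun (congrFun h2 i) j

@[simp] theorem sndM_add (N N' : M2 (DualNumber k)) : sndM (N + N') = sndM N + sndM N' := by
  ext i j; simp

@[simp] theorem sndM_one : sndM (1 : M2 (DualNumber k)) = 0 := by
  ext i j
  by_cases h : i = j <;> simp [h]

@[simp] theorem sndM_zero : sndM (0 : M2 (DualNumber k)) = 0 := by
  ext i j; simp

theorem sndM_mul (N N' : M2 (DualNumber k)) :
    sndM (N * N') = fstM N * sndM N' + sndM N * fstM N' := by
  ext i j
  simp only [sndM_apply, Matrix.mul_apply, Matrix.add_apply, fstM_apply, TrivSqZeroExt.snd_sum,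
    TrivSqZeroExt.snd_mul, smul_eq_mul, MulOpposite.smul_eq_mul_unop, MulOpposite.unop_op,
    Finset.sum_add_distrib]

/-- the matrix `F + ε S` -/
def mkM (F S : M2 k) : M2 (DualNumber k) := fun i j => TrivSqZeroExt.inl (F i j) + TrivSqZeroExt.inr (S i j)

@[simp] theorem fstM_mkM (F S : M2 k) : fstM (mkM F S) = F := by
  ext i j; simp [mkM]

@[simp] theorem sndM_mkM (F S : M2 k) : sndM (mkM F S) = S := by
  ext i j; simp [mkM]

theorem mkM_fst_snd (N : M2 (DualNumber k)) : mkM (fstM N) (sndM N) = N :=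
  ext_fst_snd (fstM_mkM _ _) (sndM_mkM _ _)

theorem fst_det (N : M2 (DualNumber k)) : TrivSqZeroExt.fst N.det = (fstM N).det := by
  have := RingHom.map_det ((TrivSqZeroExt.fstHom k k k : DualNumber k →ₐ[k] k) : DualNumber k →+* k) N
  exact this

theorem snd_det (N : M2 (DualNumber k)) :
    TrivSqZeroExt.snd N.det = Matrix.trace (sndM N * Matrix.adjugate (fstM N)) := by
  rw [Matrix.det_fin_two, Matrix.adjugate_fin_two, Matrix.trace_fin_two]
  simp only [TrivSqZeroExt.snd_sub, TrivSqZeroExt.snd_mul, smul_eq_mul, MulOpposite.smul_eq_mul_unop,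
    MulOpposite.unop_op, Matrix.mul_apply, Fin.sum_univ_two, sndM_apply, fstM_apply,
    Matrix.of_apply, Matrix.cons_val', Matrix.cons_val_zero, Matrix.cons_val_one,
    Matrix.empty_val', Matrix.cons_val_fin_one]
  ring

/-- `1 + ε X` -/
def unitOf (X : M2 k) : (M2 (DualNumber k))ˣ where
  val := mkM 1 X
  inv := mkM 1 (-X)
  val_inv := by
    apply ext_fst_snd
    · rw [map_mul, fstM_mkM, fstM_mkM, map_one, mul_one]
    · rw [sndM_mul, fstM_mkM, fstM_mkM, sndM_mkM, sndM_mkM, sndM_one, one_mul, mul_one,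
        neg_add_cancel]
  inv_val := by
    apply ext_fst_snd
    · rw [map_mul, fstM_mkM, fstM_mkM, map_one, mul_one]
    · rw [sndM_mul, fstM_mkM, fstM_mkM, sndM_mkM, sndM_mkM, sndM_one, one_mul, mul_one,
        add_neg_cancel]

@[simp] theorem fstM_unitOf (X : M2 k) : fstM (unitOf X : M2 (DualNumber k)) = 1 := fstM_mkM _ _

@[simp] theorem sndM_unitOf (X : M2 k) : sndM (unitOf X : M2 (DualNumber k)) = X := sndM_mkM _ _

end DualMat

/-! ### the cocycle of a matrix representation over the dual numbers -/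

section Coc

variable {k : Type} [Field k] {G : Type*} [Group G] (M M' : G →* M2 (DualNumber k))

/-- the reduction modulo `ε` -/
def redM : G →* M2 k := ((fstM : M2 (DualNumber k) →+* M2 k) : M2 (DualNumber k) →* M2 k).comp M

@[simp] theorem redM_apply (σ : G) : redM M σ = fstM (M σ) := rfl

theorem redM_mul_inv (σ : G) : redM M σ * redM M σ⁻¹ = 1 := by
  rw [← map_mul, mul_inv_cancel, map_one]

theorem redM_inv_mul (σ : G) : redM M σ⁻¹ * redM M σ = 1 := by
  rw [← map_mul, inv_mul_cancel, map_one]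

/-- **the cocycle** `c σ = (∂M/∂ε)(σ) · M̄(σ)⁻¹`, so that `M σ = (1 + ε c σ) M̄ σ` -/
def cocMat (σ : G) : M2 k := sndM (M σ) * redM M σ⁻¹

theorem sndM_eq (σ : G) : sndM (M σ) = cocMat M σ * redM M σ := by
  rw [cocMat, mul_assoc, redM_inv_mul, mul_one]

/-- `M σ = (1 + ε c σ) M̄ σ` -/
theorem eq_unitOf_mul (σ : G) : M σ = (unitOf (cocMat M σ) : M2 (DualNumber k)) * mkM (redM M σ) 0 := by
  apply ext_fst_snd
  · rw [map_mul, fstM_unitOf, fstM_mkM, one_mul, redM_apply]
  · rw [sndM_mul, fstM_unitOf, fstM_mkM, sndM_unitOf, sndM_mkM, mul_zero, zero_add, sndM_eq]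

/-- **the cocycle identity** `c (σ τ) = c σ + σ • c τ` -/
theorem cocMat_mul (σ τ : G) :
    cocMat M (σ * τ) = cocMat M σ + redM M σ * cocMat M τ * redM M σ⁻¹ := by
  have h1 : redM M (σ * τ)⁻¹ = redM M τ⁻¹ * redM M σ⁻¹ := by rw [_root_.mul_inv_rev, map_mul]
  rw [cocMat, map_mul, sndM_mul, h1, cocMat, cocMat, ← redM_apply, ← redM_apply, add_mul, add_comm]
  congr 1
  · rw [mul_assoc, ← mul_assoc (redM M τ), redM_mul_inv, one_mul]
  · simp only [mul_assoc]

theorem cocMat_one : cocMat M 1 = 0 := by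
  rw [cocMat, map_one, sndM_one, zero_mul]

theorem cocMat_eq_zero_of_eq_one {σ : G} (h : M σ = 1) : cocMat M σ = 0 := by
  rw [cocMat, h, sndM_one, zero_mul]

theorem cocMat_eq_zero_iff (σ : G) : cocMat M σ = 0 ↔ sndM (M σ) = 0 := by
  constructor
  · intro h; rw [sndM_eq, h, zero_mul]
  · intro h; rw [cocMat, h, zero_mul]

theorem cocMat_mul_of_eq_one (σ : G) {τ : G} (h : M τ = 1) : cocMat M (σ * τ) = cocMat M σ := by
  rw [cocMat_mul, cocMat_eq_zero_of_eq_one M h, mul_zero, zero_mul, add_zero]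

/-- the trace of the cocycle is the logarithmic derivative of the determinant -/
theorem snd_det_eq (σ : G) :
    TrivSqZeroExt.snd (M σ).det = (redM M σ).det * Matrix.trace (cocMat M σ) := by
  have hadj : Matrix.adjugate (redM M σ) = (redM M σ).det • redM M σ⁻¹ := by
    calc Matrix.adjugate (redM M σ) = Matrix.adjugate (redM M σ) * (redM M σ * redM M σ⁻¹) := by
          rw [redM_mul_inv, mul_one]
      _ = (redM M σ).det • redM M σ⁻¹ := by
          rw [← mul_assoc, Matrix.adjugate_mul, Matrix.smul_mul, one_mul]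
  rw [snd_det, ← redM_apply, hadj, Matrix.mul_smul, Matrix.trace_smul, smul_eq_mul, cocMat]

theorem isUnit_det_redM (σ : G) : IsUnit (redM M σ).det := by
  have h := congrArg Matrix.det (redM_mul_inv M σ)
  rw [Matrix.det_mul, Matrix.det_one] at h
  exact IsUnit.of_mul_eq_one _ h

theorem trace_cocMat_eq_zero {σ : G} (h : TrivSqZeroExt.snd (M σ).det = 0) :
    Matrix.trace (cocMat M σ) = 0 := by
  rw [snd_det_eq] at h
  exact (mul_eq_zero.mp h).resolve_left (isUnit_det_redM M σ).ne_zero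

variable {M M'}

/-- **cohomologous cocycles give conjugate representations**: if `c − c' = σ • X − X` then
`1 + ε X` intertwines `M` and `M'`. -/
theorem unitOf_mul_eq_of_cohomologous (hred : redM M = redM M') (X : M2 k)
    (h : ∀ σ, cocMat M σ - cocMat M' σ = redM M σ * X * redM M σ⁻¹ - X) (σ : G) :
    (unitOf X : M2 (DualNumber k)) * M σ = M' σ * (unitOf X : M2 (DualNumber k)) := by
  have hσ : fstM (M σ) = fstM (M' σ) := DFunLike.congr_fun hred σ
  apply ext_fst_snd
  · rw [map_mul, map_mul, fstM_unitOf, one_mul, mul_one, hσ]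
  · rw [sndM_mul, sndM_mul, fstM_unitOf, sndM_unitOf, one_mul, mul_one, sndM_eq M, sndM_eq M',
      ← hred, ← hσ, ← redM_apply]
    have h1 := h σ
    rw [sub_eq_iff_eq_add] at h1
    rw [h1, add_mul, sub_mul, mul_assoc (redM M σ * X), redM_inv_mul, mul_one]
    abel

/-- conversely -/
theorem cohomologous_of_unitOf_mul_eq (X : M2 k)
    (h : ∀ σ, (unitOf X : M2 (DualNumber k)) * M σ = M' σ * (unitOf X : M2 (DualNumber k))) :
    redM M = redM M' ∧
      ∀ σ, cocMat M σ - cocMat M' σ = redM M σ * X * redM M σ⁻¹ - X := by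
  have hred : redM M = redM M' := by
    ext1 σ
    have := congrArg fstM (h σ)
    rwa [map_mul, map_mul, fstM_unitOf, one_mul, mul_one] at this
  refine ⟨hred, fun σ => ?_⟩
  have hσ : fstM (M σ) = fstM (M' σ) := DFunLike.congr_fun hred σ
  have h2 := congrArg sndM (h σ)
  rw [sndM_mul, sndM_mul, fstM_unitOf, sndM_unitOf, one_mul, mul_one, sndM_eq M, sndM_eq M',
    ← hred, ← hσ, ← redM_apply] at h2
  have h3 := congrArg (· * redM M σ⁻¹) h2
  simp only [add_mul, mul_assoc, redM_mul_inv, mul_one] at h3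
  rw [← mul_assoc] at h3
  rw [sub_eq_sub_iff_add_eq_add, ← h3]

end Coc

/-! ### determinants -/

section Det

variable {k : Type} [Field k]

theorem mem_maximalIdeal_dualNumber_iff (a : DualNumber k) :
    a ∈ maximalIdeal (DualNumber k) ↔ TrivSqZeroExt.fst a = 0 := by
  rw [mem_maximalIdeal, mem_nonunits_iff, TrivSqZeroExt.isUnit_iff_isUnit_fst, isUnit_iff_ne_zero,
    not_not]

theorem det_ofMat {A : Type} [CommRing A] [IsLocalRing A] (M : GQ →* M2 A) (hM : MatCont M)
    (σ : GQ) : LinearMap.det ((ofMat M hM).ρ σ) = (M σ).det := by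
  show LinearMap.det (Matrix.toLin' (M σ)) = (M σ).det
  exact LinearMap.det_toLin' _

theorem det_eq_of_equiv {A : Type} [CommRing A] [IsLocalRing A] {ρ₁ ρ₂ : GaloisRepAdic A}
    (e : GaloisRepAdic.Equiv ρ₁ ρ₂) (σ : GQ) :
    LinearMap.det (ρ₁.ρ σ) = LinearMap.det (ρ₂.ρ σ) := by
  have h : ρ₂.ρ σ = (e.toLinearEquiv : ρ₁.V →ₗ[A] ρ₂.V) ∘ₗ ρ₁.ρ σ ∘ₗ
      (e.toLinearEquiv.symm : ρ₂.V →ₗ[A] ρ₁.V) := by
    refine LinearMap.ext fun x => ?_
    simp only [LinearMap.comp_apply, LinearEquiv.coe_coe]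
    rw [e.map_apply, LinearEquiv.apply_symm_apply]
  rw [h, LinearMap.det_conj]

theorem detIsCyclotomic_of_equiv {A : Type} [CommRing A] [IsLocalRing A] {ρ₁ ρ₂ : GaloisRepAdic A}
    (e : GaloisRepAdic.Equiv ρ₁ ρ₂) {p : ℕ} (h : ρ₁.DetIsCyclotomic p) : ρ₂.DetIsCyclotomic p :=
  ⟨h.1, fun n σ a ha => by rw [← det_eq_of_equiv e σ]; exact h.2 n σ a ha⟩

/-- every `σ` acts on `μ_p` through a power -/
theorem exists_pow_eq (p : ℕ) [Fact p.Prime] (σ : GQ) :
    ∃ a : ℕ, ∀ μ : AlgebraicClosure ℚ, μ ^ p ^ 1 = 1 → σ μ = μ ^ a :=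
  ⟨_, fun _ hμ => Fermat.Agent.N4.FrobDensity.cycloCharAdic_spec p σ hμ⟩

/-- **the determinant of a lift with cyclotomic determinant has no `ε`-part** (`p = 0` in `k`) -/
theorem snd_det_eq_zero {p : ℕ} [Fact p.Prime] (hpk : (p : k) = 0)
    (ρA : GaloisRepAdic (DualNumber k)) (h : ρA.DetIsCyclotomic p) (σ : GQ) :
    TrivSqZeroExt.snd (LinearMap.det (ρA.ρ σ)) = 0 := by
  obtain ⟨a, ha⟩ := exists_pow_eq p σ
  have h1 := h.2 1 σ a ha
  have h0 : (((p ^ 1 : ℕ)) : DualNumber k) = 0 := by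
    rw [pow_one]
    ext
    · rw [TrivSqZeroExt.fst_natCast, hpk, TrivSqZeroExt.fst_zero]
    · rw [TrivSqZeroExt.snd_natCast, TrivSqZeroExt.snd_zero]
  rw [h0, Ideal.span_singleton_eq_bot.mpr rfl, Ideal.mem_bot, sub_eq_zero] at h1
  rw [h1, TrivSqZeroExt.snd_natCast]

end Det

/-! ### the cocycle of a lift of `ρ̄`, with values in `ad⁰ρ̄` -/

section Residual

open Fermat.Agent.S56.Ad groupCohomology

variable {k : Type} [Field k] (ρbar : ResidualGaloisRep k)

/-- the matrix form of endomorphisms of `ρ̄.V`, in the basis of `resMat` -/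
def toM : Module.End k ρbar.V ≃ₐ[k] M2 k :=
  LinearMap.toMatrixAlgEquiv (Module.finBasisOfFinrankEq k ρbar.V ρbar.finrank_eq)

theorem toM_rho (σ : GQ) : toM ρbar (ρbar.ρ σ) = resMat ρbar σ := rfl

theorem toM_symm_resMat (σ : GQ) : (toM ρbar).symm (resMat ρbar σ) = ρbar.ρ σ := by
  rw [← toM_rho, AlgEquiv.symm_apply_apply]

theorem trace_toM_symm (N : M2 k) :
    LinearMap.trace k ρbar.V ((toM ρbar).symm N) = Matrix.trace N := by
  rw [LinearMap.trace_eq_matrix_trace k (Module.finBasisOfFinrankEq k ρbar.V ρbar.finrank_eq)]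
  congr 1
  exact (toM ρbar).apply_symm_apply N

variable (M M' : GQ →* M2 (DualNumber k))

/-- the cocycle as endomorphisms of `ρ̄.V` -/
def cocEnd (σ : GQ) : Module.End k ρbar.V := (toM ρbar).symm (cocMat M σ)

theorem trace_cocEnd (σ : GQ) :
    LinearMap.trace k ρbar.V (cocEnd ρbar M σ) = Matrix.trace (cocMat M σ) :=
  trace_toM_symm ρbar _

variable {M M'}

theorem cocEnd_mul (hl : redM M = resMat ρbar) (σ τ : GQ) :
    cocEnd ρbar M (σ * τ) = cocEnd ρbar M σ + ρbar.ρ σ * cocEnd ρbar M τ * ρbar.ρ σ⁻¹ := by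
  rw [cocEnd, cocMat_mul, hl, map_add, map_mul, map_mul, toM_symm_resMat, toM_symm_resMat]
  rfl

/-! #### matrix models of lifts -/

/-- **A matrix model of a lift `ρA` of `ρ̄` to `k[ε]`**: a continuous matrix representation `M`
over `k[ε]`, equivalent to `ρA`, whose reduction modulo `ε` is the matrix form `resMat ρ̄` of `ρ̄`
(in its standard basis). -/
structure Model (ρA : GaloisRepAdic (DualNumber k)) where
  /-- the matrix representation -/
  M : GQ →* M2 (DualNumber k)
  cont : MatCont M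
  lifts : redM M = resMat ρbar
  equiv : ρA.IsEquiv (ofMat M cont)

variable {ρbar}
variable {ρA ρA' : GaloisRepAdic (DualNumber k)}

namespace Model

variable (m : Model ρbar ρA) (m' : Model ρbar ρA')

theorem redM_apply (σ : GQ) : fstM (m.M σ) = resMat ρbar σ := DFunLike.congr_fun m.lifts σ

theorem det_eq (σ : GQ) : LinearMap.det (ρA.ρ σ) = (m.M σ).det := by
  obtain ⟨e⟩ := m.equiv
  rw [det_eq_of_equiv e σ, det_ofMat]

/-- `ρA σ = 1` iff the matrix is `1` -/
theorem rho_eq_one_iff (σ : GQ) : ρA.ρ σ = 1 ↔ m.M σ = 1 := by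
  obtain ⟨e⟩ := m.equiv
  let E : ρA.V ≃ₗ[DualNumber k] (Fin 2 → DualNumber k) := e.toLinearEquiv
  have hE : ∀ x, E (ρA.ρ σ x) = (m.M σ).mulVec (E x) := fun x => e.map_apply σ x
  constructor
  · intro h
    have h1 : ∀ v : Fin 2 → DualNumber k, (m.M σ).mulVec v = v := by
      intro v
      have h2 := hE (E.symm v)
      rw [h, Module.End.one_apply, LinearEquiv.apply_symm_apply] at h2
      exact h2.symm
    have h3 : Matrix.toLin' (m.M σ) = Matrix.toLin' (1 : M2 (DualNumber k)) := by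
      refine LinearMap.ext fun v => ?_
      rw [Matrix.toLin'_apply, h1 v, Matrix.toLin'_one, LinearMap.id_apply]
    exact Matrix.toLin'.injective h3
  · intro h
    refine LinearMap.ext fun x => ?_
    apply E.injective
    rw [hE, h, Matrix.one_mulVec, Module.End.one_apply]

theorem trace_eq (σ : GQ) :
    LinearMap.trace (DualNumber k) ρA.V (ρA.ρ σ) = Matrix.trace (m.M σ) := by
  obtain ⟨e⟩ := m.equiv
  let E : ρA.V ≃ₗ[DualNumber k] (Fin 2 → DualNumber k) := e.toLinearEquiv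
  have h : Matrix.toLin' (m.M σ) = E.conj (ρA.ρ σ) := by
    refine LinearMap.ext fun v => ?_
    rw [LinearEquiv.conj_apply_apply]
    have h1 : E (ρA.ρ σ (E.symm v)) = (m.M σ).mulVec (E (E.symm v)) := e.map_apply σ (E.symm v)
    rw [h1, LinearEquiv.apply_symm_apply, Matrix.toLin'_apply]
  rw [← Matrix.trace_toLin'_eq, h, LinearMap.trace_conj']

theorem charpoly_eq (σ : GQ) : LinearMap.charpoly (ρA.ρ σ) = (m.M σ).charpoly := by
  obtain ⟨e⟩ := m.equiv
  let E : ρA.V ≃ₗ[DualNumber k] (Fin 2 → DualNumber k) := e.toLinearEquiv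
  have h : Matrix.toLin' (m.M σ) = E.conj (ρA.ρ σ) := by
    refine LinearMap.ext fun v => ?_
    rw [LinearEquiv.conj_apply_apply]
    have h1 : E (ρA.ρ σ (E.symm v)) = (m.M σ).mulVec (E (E.symm v)) := e.map_apply σ (E.symm v)
    rw [h1, LinearEquiv.apply_symm_apply, Matrix.toLin'_apply]
  rw [← Matrix.charpoly_toLin', h, LinearEquiv.charpoly_conj]

variable (p : ℕ) [Fact p.Prime] [Algebra (ZMod p) k]

/-- the trace of the cocycle vanishes when the determinant is cyclotomic -/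
theorem trace_cocMat (hpk : (p : k) = 0) (hdet : ρA.DetIsCyclotomic p) (σ : GQ) :
    Matrix.trace (cocMat m.M σ) = 0 := by
  apply trace_cocMat_eq_zero
  rw [← m.det_eq]
  exact snd_det_eq_zero hpk ρA hdet σ

/-- the values of the cocycle, in `ad⁰ρ̄` -/
def cocycleFun (hpk : (p : k) = 0) (hdet : ρA.DetIsCyclotomic p) (σ : GQ) : Ad0 ρbar p :=
  Ad0.mk ρbar p (cocEnd ρbar m.M σ) (by rw [trace_cocEnd]; exact m.trace_cocMat p hpk hdet σ)

theorem toEnd_cocycleFun (hpk : (p : k) = 0) (hdet : ρA.DetIsCyclotomic p) (σ : GQ) :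
    Ad0.toEnd ρbar p (m.cocycleFun p hpk hdet σ) = cocEnd ρbar m.M σ := rfl

theorem cocycleFun_mul (hpk : (p : k) = 0) (hdet : ρA.DetIsCyclotomic p) (σ τ : GQ) :
    m.cocycleFun p hpk hdet (σ * τ) =
      (ad0 ρbar p).ρ σ (m.cocycleFun p hpk hdet τ) + m.cocycleFun p hpk hdet σ := by
  apply Ad0.ext ρbar p
  rw [map_add, toEnd_ρ, toEnd_cocycleFun, toEnd_cocycleFun, toEnd_cocycleFun,
    cocEnd_mul ρbar m.lifts, add_comm]

/-- **the cocycle of a lift of `ρ̄` to `k[ε]` with cyclotomic determinant**, as an element of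
Mathlib's `cocycles₁ (ad⁰ρ̄)` -/
def cocycle (hpk : (p : k) = 0) (hdet : ρA.DetIsCyclotomic p) : cocycles₁ (ad0 ρbar p) :=
  ⟨m.cocycleFun p hpk hdet, (mem_cocycles₁_iff _).mpr (m.cocycleFun_mul p hpk hdet)⟩

@[simp] theorem cocycle_apply (hpk : (p : k) = 0) (hdet : ρA.DetIsCyclotomic p) (σ : GQ) :
    m.cocycle p hpk hdet σ = m.cocycleFun p hpk hdet σ := rfl

theorem toEnd_cocycle (hpk : (p : k) = 0) (hdet : ρA.DetIsCyclotomic p) (σ : GQ) :
    Ad0.toEnd ρbar p (m.cocycle p hpk hdet σ) = (toM ρbar).symm (cocMat m.M σ) := rfl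

/-- the cocycle vanishes where `ρA` is trivial -/
theorem cocycle_eq_zero_of_rho_eq_one (hpk : (p : k) = 0) (hdet : ρA.DetIsCyclotomic p) {σ : GQ}
    (h : ρA.ρ σ = 1) : m.cocycle p hpk hdet σ = 0 := by
  apply Ad0.ext ρbar p
  rw [toEnd_cocycle, cocMat_eq_zero_of_eq_one m.M ((m.rho_eq_one_iff σ).mp h), map_zero, map_zero]

/-- the cocycle is right-invariant under the elements on which `ρA` is trivial -/
theorem cocycle_mul_of_rho_eq_one (hpk : (p : k) = 0) (hdet : ρA.DetIsCyclotomic p) (σ : GQ)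
    {τ : GQ} (h : ρA.ρ τ = 1) : m.cocycle p hpk hdet (σ * τ) = m.cocycle p hpk hdet σ := by
  apply Ad0.ext ρbar p
  rw [toEnd_cocycle, toEnd_cocycle, cocMat_mul_of_eq_one m.M σ ((m.rho_eq_one_iff τ).mp h)]

/-- `ρA` is trivial on an open subgroup -/
theorem exists_level_rho_eq_one (ρA : GaloisRepAdic (DualNumber k)) :
    ∃ F : IntermediateField ℚ (AlgebraicClosure ℚ), FiniteDimensional ℚ F ∧
      ∀ s ∈ F.fixingSubgroup, ρA.ρ s = 1 := by
  obtain ⟨L, hL, h⟩ := ρA.isAdicContinuous 2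
  refine ⟨L, hL, fun s hs => LinearMap.ext fun v => ?_⟩
  have h1 := h s (fun x hx => (IntermediateField.mem_fixingSubgroup_iff L s).mp hs x hx) v
  rw [Fermat.Agent.S56.Ring.maximalIdeal_dualNumber_sq, Submodule.bot_smul, Submodule.mem_bot,
    sub_eq_zero] at h1
  rw [h1, Module.End.one_apply]

/-- **the cocycle is level-constant** (prelude vocabulary) -/
theorem isLevelConstant_cocycle (hpk : (p : k) = 0) (hdet : ρA.DetIsCyclotomic p) :
    IsLevelConstant₁ (MonoidHom.id GQ) (m.cocycle p hpk hdet) := by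
  obtain ⟨F, hF, h⟩ := exists_level_rho_eq_one ρA
  exact ⟨F, hF, fun g s hs => m.cocycle_mul_of_rho_eq_one p hpk hdet g (h s hs)⟩

/-- **Cohomologous cocycles come from equivalent lifts**: if the cocycles of two lifts differ by the
coboundary of `x ∈ ad⁰ρ̄`, the lifts are equivalent (conjugate by `1 + ε x`). -/
theorem isEquiv_of_cohomologous (hpk : (p : k) = 0) (hdet : ρA.DetIsCyclotomic p)
    (hdet' : ρA'.DetIsCyclotomic p) (x : Ad0 ρbar p)
    (h : ∀ σ, m.cocycle p hpk hdet σ - m'.cocycle p hpk hdet' σ = (ad0 ρbar p).ρ σ x - x) :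
    ρA.IsEquiv ρA' := by
  obtain ⟨e⟩ := m.equiv
  obtain ⟨e'⟩ := m'.equiv
  have hred : redM m.M = redM m'.M := m.lifts.trans m'.lifts.symm
  set X : M2 k := toM ρbar (Ad0.toEnd ρbar p x) with hX
  have hc : ∀ σ, cocMat m.M σ - cocMat m'.M σ = redM m.M σ * X * redM m.M σ⁻¹ - X := by
    intro σ
    have h1 := congrArg (Ad0.toEnd ρbar p) (h σ)
    rw [map_sub, map_sub, toEnd_cocycle, toEnd_cocycle, toEnd_ρ, ← map_sub] at h1
    have h2 := congrArg (toM ρbar) h1
    rw [AlgEquiv.apply_symm_apply, map_sub, map_mul, map_mul, toM_rho, toM_rho] at h2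
    rw [h2, m.lifts]
  obtain ⟨e₂⟩ := (ofMat_isEquiv_iff m.M m'.M m.cont m'.cont).mpr
    ⟨unitOf X, unitOf_mul_eq_of_cohomologous hred X hc⟩
  exact ⟨(e.trans e₂).trans e'.symm⟩

end Model

end Residual

/-! ### existence of models: strict lifts -/

section Exists

open Fermat.Agent.S56.Ad

variable {𝒪 : Type} [CommRing 𝒪] [IsLocalRing 𝒪] (ρbar : ResidualGaloisRep (ResidueField 𝒪))

/-- strictness over the dual numbers: the reduction modulo `ε` is `resMat ρ̄` -/
theorem strict_iff_redM (M : GQ →* M2 (DualNumber (ResidueField 𝒪))) :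
    letI := dualNumberAlgebra 𝒪
    Strict (resMat ρbar) M ↔ redM M = resMat ρbar := by
  letI := dualNumberAlgebra 𝒪
  have halg : ∀ c : 𝒪, algebraMap 𝒪 (DualNumber (ResidueField 𝒪)) c =
      TrivSqZeroExt.inl (residue 𝒪 c) := fun c => rfl
  constructor
  · intro hs
    ext σ i j
    obtain ⟨c, hc⟩ := residue_surjective (resMat ρbar σ i j)
    have h1 := hs σ i j c hc
    rw [mem_maximalIdeal_dualNumber_iff, TrivSqZeroExt.fst_sub, halg, TrivSqZeroExt.fst_inl,
      sub_eq_zero] at h1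
    rw [redM_apply, fstM_apply, h1, hc]
  · intro h σ i j c hc
    rw [mem_maximalIdeal_dualNumber_iff, TrivSqZeroExt.fst_sub, halg, TrivSqZeroExt.fst_inl,
      sub_eq_zero, hc, ← h]
    rfl

/-- **every lift of `ρ̄` to `k[ε]` has a matrix model** -/
theorem nonempty_model (ρA : GaloisRepAdic (DualNumber (ResidueField 𝒪)))
    (hres : letI := dualNumberAlgebra 𝒪
      haveI := isLocalHom_algebraMap_dualNumber 𝒪
      ρA.residual.IsEquiv (ρbar.baseChangeAlong
        (ResidueField.map (algebraMap 𝒪 (DualNumber (ResidueField 𝒪)))))) :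
    Nonempty (Model ρbar ρA) := by
  letI := dualNumberAlgebra 𝒪
  haveI := isLocalHom_algebraMap_dualNumber 𝒪
  obtain ⟨M, hM, hs, he⟩ := exists_strict_of_residual_isEquiv ρbar ρA hres
  exact ⟨⟨M, hM, (strict_iff_redM ρbar M).mp hs, he⟩⟩

end Exists

end Fermat.Agent.S56.Tan.Cocycle
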