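/-
S56 (Taylor–Wiles primes), block TAN, leaf B4a (helper14): level-constancy.

* (L1) an open subgroup `N ≤ Γ = Gal(ℚ̄/ℚ)` containing every inertia group at the primes outside
  `Σ` contains `Gal(ℚ̄/F)` for a finite `F` unramified outside `Σ` (prelude
  `IntermediateField.IsUnramifiedOutside`); if `N` is normal it is a member of S55's
  `globalLevel Σ`, and every function on `Γ` that is right-invariant under `N` is
  `IsLevel₁ (globalLevel Σ)`;
* (L2) for a continuous matrix representation `M : Γ →* M₂(A)` over a local ring with nilpotent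
  maximal ideal whose attached `GaloisRepAdic` is unramified outside `Σ`, `N = ker M` qualifies;
* (L3) `IsUnramifiedAt` is invariant under `GaloisRepAdic.IsEquiv`.
-/
import Fermat.Agent.S55.GaloisLevel
import Fermat.Agent.S55.LevelGalois
import Fermat.Agent.S53.Defs

set_option autoImplicit false
set_option linter.unusedSectionVars false

noncomputable section

namespace Fermat.Agent.S56.Tan.Level

local notation "Qbar" => AlgebraicClosure ℚ
local notation "Γ" => (AlgebraicClosure ℚ ≃ₐ[ℚ] AlgebraicClosure ℚ)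

open Fermat.Agent.S55.Level Fermat.Agent.S55.GaloisLevel Fermat.Agent.S53 IsLocalRing

/-! ### (L1) open subgroups containing the inertia outside `Σ` -/

section L1

variable (Sg : Finset Nat.Primes) (N : Subgroup Γ)

/-- `N` contains every inertia group at every prime outside `Sg`. -/
def InertiaOutsideLE : Prop :=
  ∀ q : Nat.Primes, q ∉ Sg → ∀ A : ValuationSubring Qbar, A.LiesOverPrime (q : ℕ) →
    A.inertiaSubgroupIn ℚ ≤ N

/-- `N` contains `Gal(ℚ̄/L)` for a finite `L`. -/
def IsOpenSubgroup : Prop :=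
  ∃ L : IntermediateField ℚ Qbar, FiniteDimensional ℚ L ∧ L.fixingSubgroup ≤ N

variable {Sg N}

theorem exists_isUnramifiedOutside_le (hopen : IsOpenSubgroup N) (hur : InertiaOutsideLE Sg N) :
    ∃ F : IntermediateField ℚ Qbar, F.IsUnramifiedOutside Sg ∧ F.fixingSubgroup ≤ N := by
  have := isGalois_Qbar
  have hK : IsKrullOpen ℚ Qbar N := hopen
  refine ⟨IntermediateField.fixedField N, ⟨hK.finiteDimensional, fun q hq A hA => ?_⟩, ?_⟩
  · rw [hK.fixingSubgroup_fixedField]
    exact hur q hq A hA
  · rw [hK.fixingSubgroup_fixedField]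

theorem mem_globalLevel [N.Normal] (hopen : IsOpenSubgroup N) (hur : InertiaOutsideLE Sg N) :
    N ∈ (globalLevel Sg).sets :=
  ⟨inferInstance, exists_isUnramifiedOutside_le hopen hur⟩

/-- A function on `Γ` that is right-invariant under `N` is of finite level for `globalLevel`. -/
theorem isLevel₁_of_right_invariant [N.Normal] (hopen : IsOpenSubgroup N)
    (hur : InertiaOutsideLE Sg N) {X : Type*} (f : Γ → X)
    (hf : ∀ g : Γ, ∀ s ∈ N, f (g * s) = f g) : IsLevel₁ (globalLevel Sg) f :=
  ⟨N, mem_globalLevel hopen hur, hf⟩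

end L1

/-! ### (L2) the kernel of a matrix representation -/

section L2

variable {A : Type} [CommRing A] [IsLocalRing A]

theorem mem_ker_iff (M : GQ →* M2 A) (s : Γ) : s ∈ MonoidHom.ker M ↔ M s = 1 :=
  MonoidHom.mem_ker

theorem apply_mul_of_mem_ker (M : GQ →* M2 A) (g : Γ) {s : Γ} (hs : s ∈ MonoidHom.ker M) :
    M (g * s) = M g := by
  rw [map_mul, (mem_ker_iff M s).mp hs, mul_one]

/-- Continuity + nilpotent maximal ideal ⇒ the kernel is open. -/
theorem isOpenSubgroup_ker (M : GQ →* M2 A) (hM : MatCont M) {n : ℕ}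
    (hn : maximalIdeal A ^ n = ⊥) : IsOpenSubgroup (MonoidHom.ker M) := by
  obtain ⟨L, hL, h⟩ := hM n
  refine ⟨L, hL, fun σ hσ => ?_⟩
  rw [mem_ker_iff]
  have hσ' : ∀ x ∈ L, σ x = x := (IntermediateField.mem_fixingSubgroup_iff L σ).mp hσ
  ext i j
  have h1 := h σ hσ' i j
  rw [hn, Ideal.mem_bot, Matrix.sub_apply, sub_eq_zero] at h1
  exact h1

/-- The `GaloisRepAdic` of a matrix representation is trivial exactly where the matrices are. -/
theorem ofMat_ρ_eq_one_iff (M : GQ →* M2 A) (hM : MatCont M) (σ : Γ) :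
    (ofMat M hM).ρ σ = 1 ↔ M σ = 1 := by
  constructor
  · intro h
    ext i j
    have h1 : (M σ).mulVec (Pi.single j (1 : A)) = Pi.single j (1 : A) :=
      congrArg (fun f : Module.End A (Fin 2 → A) => f (Pi.single j (1 : A))) h
    have h2 := congrFun h1 i
    rw [Matrix.mulVec_single_one] at h2
    rw [Matrix.one_apply]
    have h3 : (M σ).col j i = M σ i j := rfl
    rw [← h3, h2, Pi.single_apply]
  · intro h
    refine LinearMap.ext fun (v : Fin 2 → A) => ?_
    show (M σ).mulVec v = v
    rw [h, Matrix.one_mulVec]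

/-- Unramified outside `Sg` ⇒ the kernel contains the inertia outside `Sg`. -/
theorem inertiaOutsideLE_ker (Sg : Finset Nat.Primes) (M : GQ →* M2 A) (hM : MatCont M)
    (hur : ∀ q : Nat.Primes, q ∉ Sg → (ofMat M hM).IsUnramifiedAt (q : ℕ)) :
    InertiaOutsideLE Sg (MonoidHom.ker M) := by
  intro q hq P hP σ hσ
  rw [mem_ker_iff, ← ofMat_ρ_eq_one_iff M hM]
  exact hur q hq P hP σ hσ

/-- **Level-constancy**: any function of `g` that only depends on `M g` is of finite level for
`globalLevel Sg`, when `M` is continuous, unramified outside `Sg`, over a ring with nilpotent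
maximal ideal. -/
theorem isLevel₁_of_factors (Sg : Finset Nat.Primes) (M : GQ →* M2 A) (hM : MatCont M) {n : ℕ}
    (hn : maximalIdeal A ^ n = ⊥)
    (hur : ∀ q : Nat.Primes, q ∉ Sg → (ofMat M hM).IsUnramifiedAt (q : ℕ))
    {X : Type*} (f : Γ → X) (hf : ∀ g g' : Γ, M g = M g' → f g = f g') :
    IsLevel₁ (globalLevel Sg) f :=
  isLevel₁_of_right_invariant (isOpenSubgroup_ker M hM hn) (inertiaOutsideLE_ker Sg M hM hur) f
    (fun g _ hs => hf _ _ (apply_mul_of_mem_ker M g hs))

end L2

/-! ### (L3) unramifiedness and equivalence -/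

section L3

variable {A : Type} [CommRing A] [IsLocalRing A]

theorem isUnramifiedAt_of_isEquiv {ρ₁ ρ₂ : GaloisRepAdic A} (h : ρ₁.IsEquiv ρ₂) {q : ℕ}
    (h1 : ρ₁.IsUnramifiedAt q) : ρ₂.IsUnramifiedAt q := by
  obtain ⟨e⟩ := h
  intro P hP σ hσ
  refine LinearMap.ext fun y => ?_
  obtain ⟨x, rfl⟩ := e.toLinearEquiv.surjective y
  rw [← e.map_apply, h1 P hP σ hσ]
  rfl

end L3

end Fermat.Agent.S56.Tan.Level
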