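/-
S56 (Taylor–Wiles primes), block TAN, leaf B4b/B5 (helper14): the cohomology class of a
dual-number point of the universal deformation ring, and the classifier.

For `DQ : GaloisRep.DeformationRingData 𝒪 ρbar 𝒟` with cyclotomic determinant, unramified outside
`Sg`, and an `𝒪`-algebra hom `φ : DQ.R → k[ε]`:
* `pushRep DQ φ` : the push-forward of `DQ.ρ`, a lift of `ρbar` to `k[ε]`; `pushModel` a matrix
  model of it (helper2's `Cocycle.Model`); `cocycleOf` its cocycle in `cocycles₁ (ad0 ρbar p)`;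
* `isLevel₁_cocycleOf` : the cocycle is of finite level for S55's `globalLevel Sg`;
* `classOf DQ … φ : levelCohomology (globalLevel Sg) (ad0 ρbar p) 1`;
* `isEquiv_of_classOf_eq` : equal classes ⇒ equivalent push-forwards;
* `exists_surjective_of_classOf_mem` : if `𝒟` is stable under the surjections `DQ.R ↠ k[ε]` and all
  classes of surjections lie in a finite set of at most `|k| ^ r` elements (a Selmer group), then
  `𝒪⟦X₁,…,X_r⟧ ↠ DQ.R`; the two concrete corollaries for the frozen conditions of S56.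
-/
import Fermat.Agent.S56.Tan.Cocycle
import Fermat.Agent.S56.Tan.Level
import Fermat.Agent.S56.Ring.Concrete
import Fermat.Agent.S55.LevelH1

set_option autoImplicit false
set_option linter.unusedSectionVars false
set_option linter.style.haveILetI false

noncomputable section

namespace Fermat.Agent.S56.Tan.Class

local notation "Γ" => (AlgebraicClosure ℚ ≃ₐ[ℚ] AlgebraicClosure ℚ)

open IsLocalRing Fermat.Agent.S53 Fermat.Agent.S55.Level Fermat.Agent.S56.Ring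
  Fermat.Agent.S56.Tan.Level Fermat.Agent.S56.Tan.Cocycle Fermat.Agent.S56.Ad groupCohomology

variable {𝒪 : Type} [CommRing 𝒪] [IsDomain 𝒪] [IsDiscreteValuationRing 𝒪]
  [IsAdicComplete (maximalIdeal 𝒪) 𝒪] [Finite (ResidueField 𝒪)]
  {ρbar : ResidualGaloisRep (ResidueField 𝒪)}
  {𝒟 : ∀ ⦃A : Type⦄ [CommRing A] [IsLocalRing A] [Algebra 𝒪 A], GaloisRepAdic A → Prop}
  (DQ : GaloisRep.DeformationRingData 𝒪 ρbar 𝒟)

/-- The push-forward of the universal representation to the dual numbers. -/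
def pushRep (φ : letI := dualNumberAlgebra 𝒪; DQ.R →ₐ[𝒪] DualNumber (ResidueField 𝒪)) :
    GaloisRepAdic (DualNumber (ResidueField 𝒪)) :=
  letI := dualNumberAlgebra 𝒪
  DQ.ρ.baseChangeAlong (φ : DQ.R →+* DualNumber (ResidueField 𝒪))
    (isLocalHom_algHom_dualNumber DQ φ)

theorem pushRep_residual (φ : letI := dualNumberAlgebra 𝒪; DQ.R →ₐ[𝒪] DualNumber (ResidueField 𝒪)) :
    letI := dualNumberAlgebra 𝒪
    haveI := isLocalHom_algebraMap_dualNumber 𝒪
    (pushRep DQ φ).residual.IsEquiv (ρbar.baseChangeAlong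
      (ResidueField.map (algebraMap 𝒪 (DualNumber (ResidueField 𝒪))))) := by
  letI := dualNumberAlgebra 𝒪
  haveI := isLocalHom_algebraMap_dualNumber 𝒪
  exact residual_baseChangeAlong_isEquiv DQ φ (isLocalHom_algHom_dualNumber DQ φ)

/-- A matrix model of the push-forward. -/
def pushModel (φ : letI := dualNumberAlgebra 𝒪; DQ.R →ₐ[𝒪] DualNumber (ResidueField 𝒪)) :
    Model ρbar (pushRep DQ φ) :=
  Classical.choice (nonempty_model ρbar (pushRep DQ φ) (pushRep_residual DQ φ))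

theorem pushRep_detIsCyclotomic {p : ℕ} (hdet : DQ.ρ.DetIsCyclotomic p)
    (φ : letI := dualNumberAlgebra 𝒪; DQ.R →ₐ[𝒪] DualNumber (ResidueField 𝒪)) :
    (pushRep DQ φ).DetIsCyclotomic p :=
  letI := dualNumberAlgebra 𝒪
  detIsCyclotomic_baseChangeAlong _ _ DQ.ρ hdet

theorem pushRep_isUnramifiedAt {q : ℕ} (hq : DQ.ρ.IsUnramifiedAt q)
    (φ : letI := dualNumberAlgebra 𝒪; DQ.R →ₐ[𝒪] DualNumber (ResidueField 𝒪)) :
    (pushRep DQ φ).IsUnramifiedAt q :=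
  letI := dualNumberAlgebra 𝒪
  isUnramifiedAt_baseChangeAlong _ _ DQ.ρ hq

section Cocycle

variable (p : ℕ) [Fact p.Prime] [Algebra (ZMod p) (ResidueField 𝒪)]
  (hpk : ((p : ℕ) : ResidueField 𝒪) = 0) (hdet : DQ.ρ.DetIsCyclotomic p)

/-- The cocycle of a dual-number point of `DQ.R`. -/
def cocycleOf (φ : letI := dualNumberAlgebra 𝒪; DQ.R →ₐ[𝒪] DualNumber (ResidueField 𝒪)) :
    cocycles₁ (ad0 ρbar p) :=
  (pushModel DQ φ).cocycle p hpk (pushRep_detIsCyclotomic DQ hdet φ)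

variable (Sg : Finset Nat.Primes)

theorem isOpenSubgroup_ker_pushRep
    (φ : letI := dualNumberAlgebra 𝒪; DQ.R →ₐ[𝒪] DualNumber (ResidueField 𝒪)) :
    IsOpenSubgroup (MonoidHom.ker (pushRep DQ φ).ρ) := by
  obtain ⟨F, hF, h⟩ := Model.exists_level_rho_eq_one (pushRep DQ φ)
  exact ⟨F, hF, fun s hs => MonoidHom.mem_ker.mpr (h s hs)⟩

theorem inertiaOutsideLE_ker_pushRep
    (hur : ∀ q : Nat.Primes, q ∉ Sg → DQ.ρ.IsUnramifiedAt (q : ℕ))
    (φ : letI := dualNumberAlgebra 𝒪; DQ.R →ₐ[𝒪] DualNumber (ResidueField 𝒪)) :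
    InertiaOutsideLE Sg (MonoidHom.ker (pushRep DQ φ).ρ) := by
  intro q hq P hP σ hσ
  exact MonoidHom.mem_ker.mpr (pushRep_isUnramifiedAt DQ (hur q hq) φ P hP σ hσ)

/-- **The cocycle is of finite level for `globalLevel Sg`.** -/
theorem isLevel₁_cocycleOf
    (hur : ∀ q : Nat.Primes, q ∉ Sg → DQ.ρ.IsUnramifiedAt (q : ℕ))
    (φ : letI := dualNumberAlgebra 𝒪; DQ.R →ₐ[𝒪] DualNumber (ResidueField 𝒪)) :
    IsLevel₁ (globalLevel Sg) (cocycleOf DQ p hpk hdet φ : Γ → Ad0 ρbar p) :=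
  isLevel₁_of_right_invariant (isOpenSubgroup_ker_pushRep DQ φ)
    (inertiaOutsideLE_ker_pushRep DQ Sg hur φ) _
    (fun g _ hs => (pushModel DQ φ).cocycle_mul_of_rho_eq_one p hpk
      (pushRep_detIsCyclotomic DQ hdet φ) g (MonoidHom.mem_ker.mp hs))

variable [IsDiscrete (globalLevel Sg) (ad0 ρbar p)]

/-- The cocycle as a level cocycle. -/
def levelCocycleOf (hur : ∀ q : Nat.Primes, q ∉ Sg → DQ.ρ.IsUnramifiedAt (q : ℕ))
    (φ : letI := dualNumberAlgebra 𝒪; DQ.R →ₐ[𝒪] DualNumber (ResidueField 𝒪)) :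
    levelCocycles₁ (globalLevel Sg) (ad0 ρbar p) :=
  ⟨(cocycleOf DQ p hpk hdet φ : Γ → Ad0 ρbar p),
    (mem_levelCocycles₁_iff (globalLevel Sg) (ad0 ρbar p) _).mpr
      ⟨(cocycleOf DQ p hpk hdet φ).2, isLevel₁_cocycleOf DQ p hpk hdet Sg hur φ⟩⟩

/-- **The cohomology class of a dual-number point of `DQ.R`** in `H¹(G_{Sg}, ad⁰ρ̄)`. -/
def classOf (hur : ∀ q : Nat.Primes, q ∉ Sg → DQ.ρ.IsUnramifiedAt (q : ℕ))
    (φ : letI := dualNumberAlgebra 𝒪; DQ.R →ₐ[𝒪] DualNumber (ResidueField 𝒪)) :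
    levelCohomology (globalLevel Sg) (ad0 ρbar p) 1 :=
  levelH1π (globalLevel Sg) (ad0 ρbar p) (levelCocycleOf DQ p hpk hdet Sg hur φ)

/-- **Equal classes ⇒ equivalent push-forwards.** -/
theorem isEquiv_of_classOf_eq
    (hur : ∀ q : Nat.Primes, q ∉ Sg → DQ.ρ.IsUnramifiedAt (q : ℕ))
    (φ φ' : letI := dualNumberAlgebra 𝒪; DQ.R →ₐ[𝒪] DualNumber (ResidueField 𝒪))
    (h : classOf DQ p hpk hdet Sg hur φ = classOf DQ p hpk hdet Sg hur φ') :
    (pushRep DQ φ').IsEquiv (pushRep DQ φ) := by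
  have h1 := (levelH1π_eq_iff (globalLevel Sg) (ad0 ρbar p) _ _).mp h
  obtain ⟨x, hx⟩ := h1
  have h2 : (pushRep DQ φ).IsEquiv (pushRep DQ φ') := by
    refine (pushModel DQ φ).isEquiv_of_cohomologous (pushModel DQ φ') p hpk
      (pushRep_detIsCyclotomic DQ hdet φ) (pushRep_detIsCyclotomic DQ hdet φ') x fun σ => ?_
    have h3 := congrFun hx σ
    rw [d₀₁_hom_apply] at h3
    exact h3.symm
  obtain ⟨e⟩ := h2
  exact ⟨e.symm⟩

/-- **Ring side + tangent side**: if `𝒟` is stable under the surjections `DQ.R ↠ k[ε]` and the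
classes of all surjections lie in a finite set `Sel` with at most `|k| ^ r` elements, then `DQ.R`
is a quotient of `𝒪⟦X₁,…,X_r⟧`. -/
theorem exists_surjective_of_classOf_mem
    (hur : ∀ q : Nat.Primes, q ∉ Sg → DQ.ρ.IsUnramifiedAt (q : ℕ))
    (hq : letI := dualNumberAlgebra 𝒪;
      ∀ φ : DQ.R →ₐ[𝒪] DualNumber (ResidueField 𝒪), Function.Surjective φ →
        𝒟 (DQ.ρ.baseChangeAlong (φ : DQ.R →+* DualNumber (ResidueField 𝒪))
          (isLocalHom_algHom_dualNumber DQ φ)))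
    (Sel : Set (levelCohomology (globalLevel Sg) (ad0 ρbar p) 1)) [Finite Sel]
    (hmem : letI := dualNumberAlgebra 𝒪;
      ∀ φ : DQ.R →ₐ[𝒪] DualNumber (ResidueField 𝒪), Function.Surjective φ →
        classOf DQ p hpk hdet Sg hur φ ∈ Sel)
    (h3 : 3 ≤ Nat.card (ResidueField 𝒪)) (r : ℕ)
    (hcard : Nat.card Sel ≤ Nat.card (ResidueField 𝒪) ^ r) :
    ∃ γ : MvPowerSeries (Fin r) 𝒪 →ₐ[𝒪] DQ.R, Function.Surjective γ := by
  letI := dualNumberAlgebra 𝒪
  refine exists_surjective_of_classifier DQ hq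
    (fun φ => (⟨classOf DQ p hpk hdet Sg hur φ.1, hmem φ.1 φ.2⟩ : Sel)) ?_ h3 r hcard
  intro φ φ' h
  exact isEquiv_of_classOf_eq DQ p hpk hdet Sg hur φ.1 φ'.1 (congrArg Subtype.val h)

end Cocycle

/-! ### the two frozen conditions of S56 -/

section Concrete

variable {p : ℕ} [Fact p.Prime] [Algebra (ZMod p) (ResidueField 𝒪)] {T Smin : Finset ℕ}

/-- Strict-ordinary half: classes of surjections in a finite set of size `≤ |k| ^ r` ⇒
`𝒪⟦X₁,…,X_r⟧ ↠ DQ.R`. -/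
theorem exists_surjective_strictOrdinary_of_classOf_mem
    (DQ : GaloisRep.DeformationRingData 𝒪 ρbar (fun _A _ _ _ ρ =>
      GaloisRep.strictOrdinaryCondition 𝒪 p T ρ ∧
        ∀ q ∈ Smin, q.Prime → q ≠ p → ρ.IsUnipotentOnInertiaAt q))
    (hpk : ((p : ℕ) : ResidueField 𝒪) = 0) (Sg : Finset Nat.Primes)
    (hSg : ∀ q : Nat.Primes, q ∉ Sg → (q : ℕ) ∉ T)
    [IsDiscrete (globalLevel Sg) (ad0 ρbar p)]
    (Sel : Set (levelCohomology (globalLevel Sg) (ad0 ρbar p) 1)) [Finite Sel]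
    (hmem : letI := dualNumberAlgebra 𝒪;
      ∀ φ : DQ.R →ₐ[𝒪] DualNumber (ResidueField 𝒪), Function.Surjective φ →
        classOf DQ p hpk DQ.isOfType.1.1 Sg
          (fun q hq => DQ.isOfType.1.2.2 q q.2 (hSg q hq)) φ ∈ Sel)
    (h3 : 3 ≤ Nat.card (ResidueField 𝒪)) (r : ℕ)
    (hcard : Nat.card Sel ≤ Nat.card (ResidueField 𝒪) ^ r) :
    ∃ γ : MvPowerSeries (Fin r) 𝒪 →ₐ[𝒪] DQ.R, Function.Surjective γ :=
  letI := dualNumberAlgebra 𝒪
  exists_surjective_of_classOf_mem DQ p hpk DQ.isOfType.1.1 Sg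
    (fun q hq => DQ.isOfType.1.2.2 q q.2 (hSg q hq))
    (fun φ _ => strictOrdinary_unipotent_baseChangeAlong
      (φ : DQ.R →+* DualNumber (ResidueField 𝒪)) (isLocalHom_algHom_dualNumber DQ φ) DQ.ρ
      DQ.isOfType)
    Sel hmem h3 r hcard

/-- Flat half. -/
theorem exists_surjective_flat_of_classOf_mem
    (DQ : GaloisRep.DeformationRingData 𝒪 ρbar (fun _A _ _ _ ρ =>
      GaloisRep.flatCondition 𝒪 p T ρ ∧
        ∀ q ∈ Smin, q.Prime → q ≠ p → ρ.IsUnipotentOnInertiaAt q))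
    (hpk : ((p : ℕ) : ResidueField 𝒪) = 0) (Sg : Finset Nat.Primes)
    (hSg : ∀ q : Nat.Primes, q ∉ Sg → (q : ℕ) ∉ T)
    [IsDiscrete (globalLevel Sg) (ad0 ρbar p)]
    (Sel : Set (levelCohomology (globalLevel Sg) (ad0 ρbar p) 1)) [Finite Sel]
    (hmem : letI := dualNumberAlgebra 𝒪;
      ∀ φ : DQ.R →ₐ[𝒪] DualNumber (ResidueField 𝒪), Function.Surjective φ →
        classOf DQ p hpk DQ.isOfType.1.1 Sg
          (fun q hq => DQ.isOfType.1.2.2 q q.2 (hSg q hq)) φ ∈ Sel)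
    (h3 : 3 ≤ Nat.card (ResidueField 𝒪)) (r : ℕ)
    (hcard : Nat.card Sel ≤ Nat.card (ResidueField 𝒪) ^ r) :
    ∃ γ : MvPowerSeries (Fin r) 𝒪 →ₐ[𝒪] DQ.R, Function.Surjective γ :=
  letI := dualNumberAlgebra 𝒪
  exists_surjective_of_classOf_mem DQ p hpk DQ.isOfType.1.1 Sg
    (fun q hq => DQ.isOfType.1.2.2 q q.2 (hSg q hq))
    (fun φ hs => flat_unipotent_baseChangeAlong_of_surjective
      (φ : DQ.R →+* DualNumber (ResidueField 𝒪)) (isLocalHom_algHom_dualNumber DQ φ) DQ.ρ hs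
      DQ.isOfType)
    Sel hmem h3 r hcard

end Concrete

end Fermat.Agent.S56.Tan.Class
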