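/-
S56 / block B, leaf B6 (skeleton) + the count of B7 (helper14): THE CLASSES OF THE DUAL-NUMBER POINTS
OF `DQ.R` LIE IN A SELMER GROUP, from NAMED local memberships, and the resulting surjection
`𝒪⟦X₁,…,X_r⟧ ↠ DQ.R`.

Setting of `Tan/Class`: `DQ : DeformationRingData 𝒪 ρbar 𝒟`, `k = ResidueField 𝒪` finite,
`φ : DQ.R →ₐ[𝒪] k[ε]`, `classOf … φ ∈ H¹(G_{Sg}, ad⁰ρ̄)`; `D = localData Sg` (S55), `Sel D M 𝓛`
(`PT/Selmer`), `resAt`, `resCocycle` (`PT/Inflation`).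

* `resAt_classOf`, `resCocycle_levelCocycleOf_apply` : `res_q (classOf φ)` is the class of the
  cocycle `τ ↦ m_φ.cocycle (r_q τ)` on `G_q` (`m_φ = pushModel DQ φ`);
* `TangentAt q C 𝓛v` (LOCAL interface of a leaf E-MIN / E-SO / FLAT): for every lift `ρA` of `ρ̄` to
  `k[ε]` with cyclotomic determinant and property `C`, every model `m` and every level cocycle `z`
  of `G_q` with `z τ = m.cocycle (r_q τ)`, the class of `z` lies in `𝓛v ≤ H¹(G_q, ad⁰ρ̄)`;
  `TangentAtGlobal Sg v C 𝓛v` : the (weaker) form "for every level cocycle `c` of `G_{Sg}` with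
  `c σ = m.cocycle σ`: `locH [c] v ∈ 𝓛v`"; `TangentAt.toGlobal`; `tangentAtGlobal_top`;
* **`classOf_mem_Sel`** : local memberships ⇒ `classOf φ ∈ Sel (localData Sg) (ad⁰ρ̄) 𝓛`;
  `classOf_mem_Sel_of_tangentAt` (with a family of properties `C v` of `pushRep DQ φ`);
* `card_le_of_finrank_le` : `dim_{𝔽_p} X ≤ r · dim_{𝔽_p} k ⇒ #X ≤ |k| ^ r`;
* **`exists_surjective_of_Sel`** (generic `𝒟`), **`exists_surjective_strictOrdinary_of_Sel`**,
  **`exists_surjective_flat_of_Sel`** (the two frozen conditions of S56, `T = Smin ∪ Q`): from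
  - `hp`   : `TangentAtGlobal` at the place over `p` for `IsStrictOrdinaryAt p` / `IsFlatAt p`,
  - `hmin` : `TangentAtGlobal` at the places `q ∈ Smin`, `q ≠ p` for `IsUnipotentOnInertiaAt q`,
  - `hQ`   : `𝓛 v = ⊤` at the other places of `Sg`,
  - `dim_{𝔽_p} Sel ≤ r · dim_{𝔽_p} k` (the output of `Asm/Count`),
  a surjection `𝒪⟦X₁,…,X_r⟧ ↠ DQ.R`.
-/
import Mathlib
import Fermat.Agent.S56.Tan.Class
import Fermat.Agent.S56.PT.Inflation

set_option autoImplicit false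
set_option linter.unusedSectionVars false

namespace Fermat.Agent.S56.Tan.Selmer

local notation "Γ" => (AlgebraicClosure ℚ ≃ₐ[ℚ] AlgebraicClosure ℚ)

open IsLocalRing ExtCitation Fermat.Agent.S53 Fermat.Agent.S55.Level Fermat.Agent.S55.Cone
  Fermat.Agent.S55.Assembly Fermat.Agent.S56.Ring Fermat.Agent.S56.Tan.Level
  Fermat.Agent.S56.Tan.Cocycle Fermat.Agent.S56.Tan.Class Fermat.Agent.S56.Ad
  Fermat.Agent.S56.PT.Selmer Fermat.Agent.S56.PT.Inflation groupCohomology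

/-! ### counting -/

/-- `dim_{𝔽_p} X ≤ r · dim_{𝔽_p} k ⇒ #X ≤ |k| ^ r`. -/
theorem card_le_of_finrank_le {p : ℕ} [Fact p.Prime] {k : Type*} [Field k] [Algebra (ZMod p) k]
    [Finite k] {X : Type*} [AddCommGroup X] [Module (ZMod p) X] [Module.Finite (ZMod p) X] {r : ℕ}
    (h : Module.finrank (ZMod p) X ≤ r * Module.finrank (ZMod p) k) :
    Nat.card X ≤ Nat.card k ^ r := by
  haveI : Module.Finite (ZMod p) k := Module.Finite.of_finite
  rw [Module.natCard_eq_pow_finrank (K := ZMod p) (V := X),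
    Module.natCard_eq_pow_finrank (K := ZMod p) (V := k), Nat.card_zmod, ← pow_mul, mul_comm]
  exact Nat.pow_le_pow_right (Fact.out : p.Prime).pos h

variable {𝒪 : Type} [CommRing 𝒪] [IsDomain 𝒪] [IsDiscreteValuationRing 𝒪]
  [IsAdicComplete (maximalIdeal 𝒪) 𝒪] [Finite (ResidueField 𝒪)]
  {ρbar : ResidualGaloisRep (ResidueField 𝒪)}
  {𝒟 : ∀ ⦃A : Type⦄ [CommRing A] [IsLocalRing A] [Algebra 𝒪 A], GaloisRepAdic A → Prop}
  (DQ : GaloisRep.DeformationRingData 𝒪 ρbar 𝒟)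

/-! ### the local interface -/

section Interface

variable (ρbar) (p : ℕ) [Fact p.Prime] [Algebra (ZMod p) (ResidueField 𝒪)]
  (hpk : ((p : ℕ) : ResidueField 𝒪) = 0)

/-- **LOCAL interface of a leaf** (E-MIN, E-SO, FLAT): `𝓛v ≤ H¹(G_q, ad⁰ρ̄)` contains the classes
of the cocycles of all lifts of `ρ̄` to `k[ε]` (cyclotomic determinant) having the property `C`. -/
def TangentAt (q : Nat.Primes)
    [IsDiscrete (localLevel (primeLocalToGlobal q)) (Rep.res (primeLocalToGlobal q) (ad0 ρbar p))]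
    (C : GaloisRepAdic (DualNumber (ResidueField 𝒪)) → Prop)
    (𝓛v : Submodule (ZMod p) (levelCohomology (localLevel (primeLocalToGlobal q))
      (Rep.res (primeLocalToGlobal q) (ad0 ρbar p)) 1)) : Prop :=
  ∀ (ρA : GaloisRepAdic (DualNumber (ResidueField 𝒪))) (m : Model ρbar ρA)
    (hdetA : ρA.DetIsCyclotomic p)
    (z : levelCocycles₁ (localLevel (primeLocalToGlobal q))
      (Rep.res (primeLocalToGlobal q) (ad0 ρbar p))),
    (∀ τ : primeLocalGaloisGroup q, z.1 τ = m.cocycle p hpk hdetA (primeLocalToGlobal q τ)) →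
    C ρA → levelH1π _ _ z ∈ 𝓛v

/-- **GLOBAL form of the interface** (weaker): the same for the localisation at `v` of the class
of a level cocycle of `G_{Sg}`. -/
def TangentAtGlobal (Sg : Finset Nat.Primes) [IsDiscrete (globalLevel Sg) (ad0 ρbar p)]
    (v : (localData Sg).ι)
    (C : GaloisRepAdic (DualNumber (ResidueField 𝒪)) → Prop)
    (𝓛v : Submodule (ZMod p) (levelCohomology ((localData Sg).𝒱 v)
      (Rep.res ((localData Sg).r v) (ad0 ρbar p)) 1)) : Prop :=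
  ∀ (ρA : GaloisRepAdic (DualNumber (ResidueField 𝒪))) (m : Model ρbar ρA)
    (hdetA : ρA.DetIsCyclotomic p) (c : levelCocycles₁ (globalLevel Sg) (ad0 ρbar p)),
    (∀ σ : Γ, c.1 σ = m.cocycle p hpk hdetA σ) →
    C ρA → locH (localData Sg) (ad0 ρbar p) 1 (levelH1π (globalLevel Sg) (ad0 ρbar p) c) v ∈ 𝓛v

variable {ρbar p hpk}

/-- The local form implies the global form. -/
theorem TangentAt.toGlobal (Sg : Finset Nat.Primes) [IsDiscrete (globalLevel Sg) (ad0 ρbar p)]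
    (v : (localData Sg).ι) {C : GaloisRepAdic (DualNumber (ResidueField 𝒪)) → Prop}
    {𝓛v : Submodule (ZMod p) (levelCohomology ((localData Sg).𝒱 v)
      (Rep.res ((localData Sg).r v) (ad0 ρbar p)) 1)}
    (h : haveI := isDiscrete_local Sg (ad0 ρbar p) v.1
      TangentAt ρbar p hpk v.1 C 𝓛v) :
    TangentAtGlobal ρbar p hpk Sg v C 𝓛v := by
  intro ρA m hdetA c hc hC
  haveI := isDiscrete_local Sg (ad0 ρbar p) v.1
  have key := h ρA m hdetA (resCocycle Sg (ad0 ρbar p) v.1 c) (fun τ => hc _) hC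
  rw [← resAt_levelH1π] at key
  exact key

/-- The relaxed condition satisfies the interface for every property. -/
theorem tangentAtGlobal_top (Sg : Finset Nat.Primes) [IsDiscrete (globalLevel Sg) (ad0 ρbar p)]
    (v : (localData Sg).ι) (C : GaloisRepAdic (DualNumber (ResidueField 𝒪)) → Prop) :
    TangentAtGlobal ρbar p hpk Sg v C ⊤ :=
  fun _ _ _ _ _ _ => Submodule.mem_top

/-- Monotonicity in the property and in the subspace. -/
theorem TangentAtGlobal.mono (Sg : Finset Nat.Primes) [IsDiscrete (globalLevel Sg) (ad0 ρbar p)]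
    (v : (localData Sg).ι) {C C' : GaloisRepAdic (DualNumber (ResidueField 𝒪)) → Prop}
    {𝓛v 𝓛v' : Submodule (ZMod p) (levelCohomology ((localData Sg).𝒱 v)
      (Rep.res ((localData Sg).r v) (ad0 ρbar p)) 1)}
    (h : TangentAtGlobal ρbar p hpk Sg v C 𝓛v) (hC : ∀ ρA, C' ρA → C ρA) (h𝓛 : 𝓛v ≤ 𝓛v') :
    TangentAtGlobal ρbar p hpk Sg v C' 𝓛v' :=
  fun ρA m hdetA c hc hC' => h𝓛 (h ρA m hdetA c hc (hC ρA hC'))

end Interface

/-! ### the classes lie in the Selmer group -/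

section Sel

variable (p : ℕ) [Fact p.Prime] [Algebra (ZMod p) (ResidueField 𝒪)]
  (hpk : ((p : ℕ) : ResidueField 𝒪) = 0) (hdet : DQ.ρ.DetIsCyclotomic p)
  (Sg : Finset Nat.Primes) [IsDiscrete (globalLevel Sg) (ad0 ρbar p)]

/-- `res_q (classOf φ)` on cocycles. -/
theorem resAt_classOf (hur : ∀ q : Nat.Primes, q ∉ Sg → DQ.ρ.IsUnramifiedAt (q : ℕ))
    (φ : letI := dualNumberAlgebra 𝒪; DQ.R →ₐ[𝒪] DualNumber (ResidueField 𝒪)) (q : Nat.Primes) :
    haveI := isDiscrete_local Sg (ad0 ρbar p) q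
    resAt Sg (ad0 ρbar p) q 1 (classOf DQ p hpk hdet Sg hur φ) =
      levelH1π (localLevel (primeLocalToGlobal q)) (Rep.res (primeLocalToGlobal q) (ad0 ρbar p))
        (resCocycle Sg (ad0 ρbar p) q (levelCocycleOf DQ p hpk hdet Sg hur φ)) :=
  resAt_levelH1π Sg (ad0 ρbar p) q _

/-- The restricted cocycle is `τ ↦ m_φ.cocycle (r_q τ)`. -/
theorem resCocycle_levelCocycleOf_apply
    (hur : ∀ q : Nat.Primes, q ∉ Sg → DQ.ρ.IsUnramifiedAt (q : ℕ))
    (φ : letI := dualNumberAlgebra 𝒪; DQ.R →ₐ[𝒪] DualNumber (ResidueField 𝒪)) (q : Nat.Primes)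
    (τ : primeLocalGaloisGroup q) :
    (resCocycle Sg (ad0 ρbar p) q (levelCocycleOf DQ p hpk hdet Sg hur φ)).1 τ =
      (pushModel DQ φ).cocycle p hpk (pushRep_detIsCyclotomic DQ hdet φ)
        (primeLocalToGlobal q τ) :=
  rfl

/-- The level cocycle of `φ` is the cocycle of the model `pushModel DQ φ`. -/
theorem levelCocycleOf_apply (hur : ∀ q : Nat.Primes, q ∉ Sg → DQ.ρ.IsUnramifiedAt (q : ℕ))
    (φ : letI := dualNumberAlgebra 𝒪; DQ.R →ₐ[𝒪] DualNumber (ResidueField 𝒪)) (σ : Γ) :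
    (levelCocycleOf DQ p hpk hdet Sg hur φ).1 σ =
      (pushModel DQ φ).cocycle p hpk (pushRep_detIsCyclotomic DQ hdet φ) σ :=
  rfl

/-- **B6, bare form**: local memberships ⇒ the class lies in the Selmer group. -/
theorem classOf_mem_Sel (hur : ∀ q : Nat.Primes, q ∉ Sg → DQ.ρ.IsUnramifiedAt (q : ℕ))
    (𝓛 : LocalCond (localData Sg) (ad0 ρbar p))
    (φ : letI := dualNumberAlgebra 𝒪; DQ.R →ₐ[𝒪] DualNumber (ResidueField 𝒪))
    (hloc : ∀ v : (localData Sg).ι, locH (localData Sg) (ad0 ρbar p) 1 (classOf DQ p hpk hdet Sg hur φ) v ∈ 𝓛 v) :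
    classOf DQ p hpk hdet Sg hur φ ∈ Sel (localData Sg) (ad0 ρbar p) 𝓛 :=
  (mem_Sel 𝓛 _).2 hloc

/-- **B6 from the interface**: if every `𝓛 v` satisfies the interface for a property `C v` and the
push-forward `pushRep DQ φ` has all the properties `C v`, then `classOf φ ∈ Sel`. -/
theorem classOf_mem_Sel_of_tangentAt
    (hur : ∀ q : Nat.Primes, q ∉ Sg → DQ.ρ.IsUnramifiedAt (q : ℕ))
    (𝓛 : LocalCond (localData Sg) (ad0 ρbar p))
    (C : (localData Sg).ι → GaloisRepAdic (DualNumber (ResidueField 𝒪)) → Prop)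
    (hT : ∀ v : (localData Sg).ι, TangentAtGlobal ρbar p hpk Sg v (C v) (𝓛 v))
    (φ : letI := dualNumberAlgebra 𝒪; DQ.R →ₐ[𝒪] DualNumber (ResidueField 𝒪))
    (hC : ∀ v : (localData Sg).ι, C v (pushRep DQ φ)) :
    classOf DQ p hpk hdet Sg hur φ ∈ Sel (localData Sg) (ad0 ρbar p) 𝓛 :=
  classOf_mem_Sel DQ p hpk hdet Sg hur 𝓛 φ fun v =>
    hT v (pushRep DQ φ) (pushModel DQ φ) (pushRep_detIsCyclotomic DQ hdet φ)
      (levelCocycleOf DQ p hpk hdet Sg hur φ) (fun _ => rfl) (hC v)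

include hdet in
/-- **B6 + B7, generic `𝒟`**: if `𝒟` is stable under the surjections `DQ.R ↠ k[ε]`, every `𝓛 v`
satisfies the interface for `C v`, the push-forwards along surjections have the properties `C v`,
and `dim_{𝔽_p} Sel ≤ r · dim_{𝔽_p} k`, then `DQ.R` is a quotient of `𝒪⟦X₁,…,X_r⟧`. -/
theorem exists_surjective_of_Sel
    (hur : ∀ q : Nat.Primes, q ∉ Sg → DQ.ρ.IsUnramifiedAt (q : ℕ))
    (hq : letI := dualNumberAlgebra 𝒪;
      ∀ φ : DQ.R →ₐ[𝒪] DualNumber (ResidueField 𝒪), Function.Surjective φ →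
        𝒟 (DQ.ρ.baseChangeAlong (φ : DQ.R →+* DualNumber (ResidueField 𝒪))
          (isLocalHom_algHom_dualNumber DQ φ)))
    (𝓛 : LocalCond (localData Sg) (ad0 ρbar p))
    (C : (localData Sg).ι → GaloisRepAdic (DualNumber (ResidueField 𝒪)) → Prop)
    (hT : ∀ v : (localData Sg).ι, TangentAtGlobal ρbar p hpk Sg v (C v) (𝓛 v))
    (hC : letI := dualNumberAlgebra 𝒪;
      ∀ φ : DQ.R →ₐ[𝒪] DualNumber (ResidueField 𝒪), Function.Surjective φ →
        ∀ v : (localData Sg).ι, C v (pushRep DQ φ))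
    [Module.Finite (ZMod p) (Sel (localData Sg) (ad0 ρbar p) 𝓛)]
    (h3 : 3 ≤ Nat.card (ResidueField 𝒪)) (r : ℕ)
    (hfin : Module.finrank (ZMod p) (Sel (localData Sg) (ad0 ρbar p) 𝓛) ≤
      r * Module.finrank (ZMod p) (ResidueField 𝒪)) :
    ∃ γ : MvPowerSeries (Fin r) 𝒪 →ₐ[𝒪] DQ.R, Function.Surjective γ := by
  letI := dualNumberAlgebra 𝒪
  haveI : Finite (Sel (localData Sg) (ad0 ρbar p) 𝓛) := Module.finite_of_finite (ZMod p)
  haveI : Finite ((Sel (localData Sg) (ad0 ρbar p) 𝓛 : Submodule (ZMod p) _) :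
      Set (levelCohomology (globalLevel Sg) (ad0 ρbar p) 1)) :=
    ‹Finite (Sel (localData Sg) (ad0 ρbar p) 𝓛)›
  refine exists_surjective_of_classOf_mem DQ p hpk hdet Sg hur hq
    ((Sel (localData Sg) (ad0 ρbar p) 𝓛 : Submodule (ZMod p) _) :
      Set (levelCohomology (globalLevel Sg) (ad0 ρbar p) 1))
    (fun φ hφ => classOf_mem_Sel_of_tangentAt DQ p hpk hdet Sg hur 𝓛 C hT φ (hC φ hφ)) h3 r ?_
  exact card_le_of_finrank_le (X := Sel (localData Sg) (ad0 ρbar p) 𝓛) hfin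

end Sel

/-! ### the two frozen conditions of S56 -/

section Concrete

variable {p : ℕ} [Fact p.Prime] [Algebra (ZMod p) (ResidueField 𝒪)] {T Smin : Finset ℕ}

/-- **Strict-ordinary half of S56 from the local leaves and the Selmer bound.** -/
theorem exists_surjective_strictOrdinary_of_Sel
    (DQ : GaloisRep.DeformationRingData 𝒪 ρbar (fun _A _ _ _ ρ =>
      GaloisRep.strictOrdinaryCondition 𝒪 p T ρ ∧
        ∀ q ∈ Smin, q.Prime → q ≠ p → ρ.IsUnipotentOnInertiaAt q))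
    (hpk : ((p : ℕ) : ResidueField 𝒪) = 0) (Sg : Finset Nat.Primes)
    (hSg : ∀ q : Nat.Primes, q ∉ Sg → (q : ℕ) ∉ T)
    [IsDiscrete (globalLevel Sg) (ad0 ρbar p)]
    (𝓛 : LocalCond (localData Sg) (ad0 ρbar p))
    (hp : ∀ v : (localData Sg).ι, (v.1 : ℕ) = p →
      TangentAtGlobal ρbar p hpk Sg v (fun ρA => ρA.IsStrictOrdinaryAt p) (𝓛 v))
    (hmin : ∀ v : (localData Sg).ι, (v.1 : ℕ) ≠ p → (v.1 : ℕ) ∈ Smin →
      TangentAtGlobal ρbar p hpk Sg v (fun ρA => ρA.IsUnipotentOnInertiaAt (v.1 : ℕ)) (𝓛 v))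
    (hQ : ∀ v : (localData Sg).ι, (v.1 : ℕ) ≠ p → (v.1 : ℕ) ∉ Smin → 𝓛 v = ⊤)
    [Module.Finite (ZMod p) (Sel (localData Sg) (ad0 ρbar p) 𝓛)]
    (h3 : 3 ≤ Nat.card (ResidueField 𝒪)) (r : ℕ)
    (hfin : Module.finrank (ZMod p) (Sel (localData Sg) (ad0 ρbar p) 𝓛) ≤
      r * Module.finrank (ZMod p) (ResidueField 𝒪)) :
    ∃ γ : MvPowerSeries (Fin r) 𝒪 →ₐ[𝒪] DQ.R, Function.Surjective γ := by
  letI := dualNumberAlgebra 𝒪
  classical
  have hpush : ∀ φ : DQ.R →ₐ[𝒪] DualNumber (ResidueField 𝒪),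
      GaloisRep.strictOrdinaryCondition 𝒪 p T (pushRep DQ φ) ∧
        ∀ q ∈ Smin, q.Prime → q ≠ p → (pushRep DQ φ).IsUnipotentOnInertiaAt q := fun φ =>
    strictOrdinary_unipotent_baseChangeAlong
      (φ : DQ.R →+* DualNumber (ResidueField 𝒪)) (isLocalHom_algHom_dualNumber DQ φ) DQ.ρ
      DQ.isOfType
  refine exists_surjective_of_Sel DQ p hpk DQ.isOfType.1.1 Sg
    (fun q hq => DQ.isOfType.1.2.2 q q.2 (hSg q hq))
    (fun φ _ => hpush φ) 𝓛
    (fun v ρA => if (v.1 : ℕ) = p then ρA.IsStrictOrdinaryAt p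
      else if (v.1 : ℕ) ∈ Smin then ρA.IsUnipotentOnInertiaAt (v.1 : ℕ) else True)
    (fun v => ?_) (fun φ _ v => ?_) h3 r hfin
  · by_cases h1 : (v.1 : ℕ) = p
    · simp only [h1, if_true]
      exact hp v h1
    · by_cases h2 : (v.1 : ℕ) ∈ Smin
      · simp only [h1, h2, if_true, if_false]
        exact hmin v h1 h2
      · rw [hQ v h1 h2]
        exact tangentAtGlobal_top Sg v _
  · by_cases h1 : (v.1 : ℕ) = p
    · simp only [h1, if_true]
      exact (hpush φ).1.2.1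
    · by_cases h2 : (v.1 : ℕ) ∈ Smin
      · simp only [h1, h2, if_true, if_false]
        exact (hpush φ).2 _ h2 v.1.2 h1
      · simp only [h1, h2, if_false]

/-- **Flat half of S56 from the local leaves and the Selmer bound.** -/
theorem exists_surjective_flat_of_Sel
    (DQ : GaloisRep.DeformationRingData 𝒪 ρbar (fun _A _ _ _ ρ =>
      GaloisRep.flatCondition 𝒪 p T ρ ∧
        ∀ q ∈ Smin, q.Prime → q ≠ p → ρ.IsUnipotentOnInertiaAt q))
    (hpk : ((p : ℕ) : ResidueField 𝒪) = 0) (Sg : Finset Nat.Primes)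
    (hSg : ∀ q : Nat.Primes, q ∉ Sg → (q : ℕ) ∉ T)
    [IsDiscrete (globalLevel Sg) (ad0 ρbar p)]
    (𝓛 : LocalCond (localData Sg) (ad0 ρbar p))
    (hp : ∀ v : (localData Sg).ι, (v.1 : ℕ) = p →
      TangentAtGlobal ρbar p hpk Sg v (fun ρA => ρA.IsFlatAt p) (𝓛 v))
    (hmin : ∀ v : (localData Sg).ι, (v.1 : ℕ) ≠ p → (v.1 : ℕ) ∈ Smin →
      TangentAtGlobal ρbar p hpk Sg v (fun ρA => ρA.IsUnipotentOnInertiaAt (v.1 : ℕ)) (𝓛 v))
    (hQ : ∀ v : (localData Sg).ι, (v.1 : ℕ) ≠ p → (v.1 : ℕ) ∉ Smin → 𝓛 v = ⊤)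
    [Module.Finite (ZMod p) (Sel (localData Sg) (ad0 ρbar p) 𝓛)]
    (h3 : 3 ≤ Nat.card (ResidueField 𝒪)) (r : ℕ)
    (hfin : Module.finrank (ZMod p) (Sel (localData Sg) (ad0 ρbar p) 𝓛) ≤
      r * Module.finrank (ZMod p) (ResidueField 𝒪)) :
    ∃ γ : MvPowerSeries (Fin r) 𝒪 →ₐ[𝒪] DQ.R, Function.Surjective γ := by
  letI := dualNumberAlgebra 𝒪
  classical
  have hpush : ∀ φ : DQ.R →ₐ[𝒪] DualNumber (ResidueField 𝒪), Function.Surjective φ →
      GaloisRep.flatCondition 𝒪 p T (pushRep DQ φ) ∧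
        ∀ q ∈ Smin, q.Prime → q ≠ p → (pushRep DQ φ).IsUnipotentOnInertiaAt q := fun φ hs =>
    flat_unipotent_baseChangeAlong_of_surjective
      (φ : DQ.R →+* DualNumber (ResidueField 𝒪)) (isLocalHom_algHom_dualNumber DQ φ) DQ.ρ hs
      DQ.isOfType
  refine exists_surjective_of_Sel DQ p hpk DQ.isOfType.1.1 Sg
    (fun q hq => DQ.isOfType.1.2.2 q q.2 (hSg q hq))
    (fun φ hs => hpush φ hs) 𝓛
    (fun v ρA => if (v.1 : ℕ) = p then ρA.IsFlatAt p
      else if (v.1 : ℕ) ∈ Smin then ρA.IsUnipotentOnInertiaAt (v.1 : ℕ) else True)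
    (fun v => ?_) (fun φ hs v => ?_) h3 r hfin
  · by_cases h1 : (v.1 : ℕ) = p
    · simp only [h1, if_true]
      exact hp v h1
    · by_cases h2 : (v.1 : ℕ) ∈ Smin
      · simp only [h1, h2, if_true, if_false]
        exact hmin v h1 h2
      · rw [hQ v h1 h2]
        exact tangentAtGlobal_top Sg v _
  · by_cases h1 : (v.1 : ℕ) = p
    · simp only [h1, if_true]
      exact (hpush φ hs).1.2.1
    · by_cases h2 : (v.1 : ℕ) ∈ Smin
      · simp only [h1, h2, if_true, if_false]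
        exact (hpush φ hs).2 _ h2 v.1.2 h1
      · simp only [h1, h2, if_false]

end Concrete

end Fermat.Agent.S56.Tan.Selmer
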