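/-
S56 / block B, leaf B6, THE GLUE (helper14): the tangent hypothesis of `Asm/Top` (helper10, board
#2570 (C)) in PRIME-INDEXED, level-free form, from the LIFT-FORM memberships of the local leaves.

`H q := levelCohomology (localLevel (primeLocalToGlobal q)) (Rep.res (primeLocalToGlobal q) M) 1`,
`M := ad0 ρbar p`, `𝓛 : ∀ q : Nat.Primes, Submodule (ZMod p) (H q)`.

* `TangentAt` (from `Tan/Selmer`) IS the lift form of a membership; `tangentAt_congr_inst`;
* **`tangentAt_soCond`** : E-SO (helper19 `StrictOrdCond.levelH1π_mem_soCond`) in `TangentAt` form;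
* **`tangentAtGlobal_minCond`**, `tangentAt_of_levelH1π_mem` : E-MIN (helper16 `Minimal`) in
  `TangentAtGlobal` form at a level `S` / generic adapter from a lift-form membership;
* **`resAt_classOf_mem_of_tangentAt`** : one place; **`tangentHyp_so`**, **`tangentHyp_flat`** :
  the body of `TangentHyp` for the two frozen families
  `𝒟 T ρ := strictOrdinaryCondition 𝒪 p T ρ ∧ ∀ q ∈ Smin, q.Prime → q ≠ p → ρ.IsUnipotentOnInertiaAt q`
  (resp. `flatCondition`): for every `T ⊇ Smin`, every `DQ`, every (surjective) `φ : DQ.R → k[ε]`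
  and every prime `q ∈ Smin`: `res_q (classOf φ) ∈ 𝓛 q`.
-/
import Mathlib
import Fermat.Agent.S56.Tan.Selmer
import Fermat.Agent.S56.Loc.StrictOrdCond
import Fermat.Agent.S56.Loc.Minimal
import Fermat.Agent.S56.Places.Level

set_option autoImplicit false
set_option linter.unusedSectionVars false
set_option linter.style.haveILetI false

namespace Fermat.Agent.S56.Tan.Glue

local notation "Γ" => (AlgebraicClosure ℚ ≃ₐ[ℚ] AlgebraicClosure ℚ)

open IsLocalRing ExtCitation Fermat.Agent.S53 Fermat.Agent.S55.Level Fermat.Agent.S55.Cone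
  Fermat.Agent.S55.Assembly Fermat.Agent.S56.Ring Fermat.Agent.S56.Tan.Level
  Fermat.Agent.S56.Tan.Cocycle Fermat.Agent.S56.Tan.Class Fermat.Agent.S56.Tan.Selmer
  Fermat.Agent.S56.Ad Fermat.Agent.S56.PT.Selmer Fermat.Agent.S56.PT.Inflation
  Fermat.Agent.S56.Places.Level Fermat.Agent.S56.Places.Dict groupCohomology

variable {𝒪 : Type} [CommRing 𝒪] [IsDomain 𝒪] [IsDiscreteValuationRing 𝒪]
  [IsAdicComplete (maximalIdeal 𝒪) 𝒪] [Finite (ResidueField 𝒪)]
  {ρbar : ResidualGaloisRep (ResidueField 𝒪)}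
  {p : ℕ} [Fact p.Prime] [Algebra (ZMod p) (ResidueField 𝒪)]
  {hpk : ((p : ℕ) : ResidueField 𝒪) = 0}

/-! ### the local leaves in `TangentAt` form -/

section Leaves

/-- Generic adapter: a lift-form membership IS `TangentAt`. -/
theorem tangentAt_of_levelH1π_mem (q : Nat.Primes)
    [IsDiscrete (localLevel (primeLocalToGlobal q)) (Rep.res (primeLocalToGlobal q) (ad0 ρbar p))]
    (C : GaloisRepAdic (DualNumber (ResidueField 𝒪)) → Prop)
    (𝓛v : Submodule (ZMod p) (levelCohomology (localLevel (primeLocalToGlobal q))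
      (Rep.res (primeLocalToGlobal q) (ad0 ρbar p)) 1))
    (h : ∀ (ρA : GaloisRepAdic (DualNumber (ResidueField 𝒪))) (m : Model ρbar ρA)
      (hdetA : ρA.DetIsCyclotomic p), C ρA →
      ∀ z : levelCocycles₁ (localLevel (primeLocalToGlobal q))
        (Rep.res (primeLocalToGlobal q) (ad0 ρbar p)),
      (∀ τ : primeLocalGaloisGroup q, z.1 τ = m.cocycle p hpk hdetA (primeLocalToGlobal q τ)) →
      levelH1π _ _ z ∈ 𝓛v) :
    TangentAt ρbar p hpk q C 𝓛v :=
  fun ρA m hdetA z hz hC => h ρA m hdetA hC z hz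

/-- **E-SO in `TangentAt` form**: `soCond` contains the classes of all strict-ordinary lifts. -/
theorem tangentAt_soCond (hp2 : p ≠ 2) (h2 : (2 : ResidueField 𝒪) ≠ 0)
    (hdetbar : (GaloisRepAdic.ofResidualGaloisRep ρbar).DetIsCyclotomic p)
    (q : Nat.Primes) (hq : (q : ℕ) = p)
    [IsDiscrete (localLevel (primeLocalToGlobal q)) (Rep.res (primeLocalToGlobal q) (ad0 ρbar p))] :
    TangentAt ρbar p hpk q (fun ρA => ρA.IsStrictOrdinaryAt p)
      (Fermat.Agent.S56.Loc.StrictOrdCond.soCond ρbar p q (localLevel (primeLocalToGlobal q))) :=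
  fun _ m hdetA z hz hso =>
    Fermat.Agent.S56.Loc.StrictOrdCond.levelH1π_mem_soCond (localLevel (primeLocalToGlobal q)) m hpk
      h2 hdetA hp2 hdetbar hq hso z hz

/-- **E-MIN in `TangentAtGlobal` form** at a level `S`: `minCond` contains the localisations of
the classes of all lifts which are unipotent on inertia at `v ≠ p`, `ρ̄` ramified at `v`. -/
theorem tangentAtGlobal_minCond (h2 : (2 : ResidueField 𝒪) ≠ 0) (S : Finset Nat.Primes)
    [IsDiscrete (globalLevel S) (ofChar (k := ZMod p) (cycloChar p))]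
    [IsDiscrete (globalLevel S) (ad0 ρbar p)] [IsDiscrete (globalLevel S) (ad0' ρbar p)]
    (v : (localData S).ι) (hvp : (v.1 : ℕ) ≠ p) (hram : ¬ ρbar.IsUnramifiedAt (v.1 : ℕ)) :
    TangentAtGlobal ρbar p hpk S v (fun ρA => ρA.IsUnipotentOnInertiaAt (v.1 : ℕ))
      (Fermat.Agent.S56.Loc.Minimal.minCond ρbar p S v) := by
  haveI : Module.Finite (ZMod p) (ResidueField 𝒪) := Module.Finite.of_finite
  intro ρA m hdetA c hc hC
  obtain ⟨hunip, htr⟩ :=
    Fermat.Agent.S56.Loc.Minimal.hunip_htr_of_isUnipotentOnInertiaAt p m hpk hdetA v.1 hC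
  refine Fermat.Agent.S56.Loc.Minimal.res_mem_minCond ρbar p h2 S v hvp hunip
    (Fermat.Agent.S56.Loc.Minimal.exists_ne_one_of_not_isUnramifiedAt ρbar v.1 hram) c ?_
  intro τ hτ
  rw [hc]
  exact htr τ hτ

end Leaves

/-! ### one place -/

section OnePlace

variable {𝒟 : ∀ ⦃A : Type⦄ [CommRing A] [IsLocalRing A] [Algebra 𝒪 A], GaloisRepAdic A → Prop}
  (DQ : GaloisRep.DeformationRingData 𝒪 ρbar 𝒟) (hdet : DQ.ρ.DetIsCyclotomic p)
  (Sg : Finset Nat.Primes) [IsDiscrete (globalLevel Sg) (ad0 ρbar p)]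

/-- `res_q (classOf φ) ∈ 𝓛v` from a `TangentAt` membership at `q` and the property `C` of the
push-forward. -/
theorem resAt_classOf_mem_of_tangentAt
    (hur : ∀ q : Nat.Primes, q ∉ Sg → DQ.ρ.IsUnramifiedAt (q : ℕ))
    (φ : letI := dualNumberAlgebra 𝒪; DQ.R →ₐ[𝒪] DualNumber (ResidueField 𝒪)) (q : Nat.Primes)
    [hq : IsDiscrete (localLevel (primeLocalToGlobal q))
      (Rep.res (primeLocalToGlobal q) (ad0 ρbar p))]
    {C : GaloisRepAdic (DualNumber (ResidueField 𝒪)) → Prop}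
    {𝓛v : Submodule (ZMod p) (levelCohomology (localLevel (primeLocalToGlobal q))
      (Rep.res (primeLocalToGlobal q) (ad0 ρbar p)) 1)}
    (hT : TangentAt ρbar p hpk q C 𝓛v) (hC : C (pushRep DQ φ)) :
    resAt Sg (ad0 ρbar p) q 1 (classOf DQ p hpk hdet Sg hur φ) ∈ 𝓛v := by
  have key := hT (pushRep DQ φ) (pushModel DQ φ) (pushRep_detIsCyclotomic DQ hdet φ)
    (resCocycle Sg (ad0 ρbar p) q (levelCocycleOf DQ p hpk hdet Sg hur φ)) (fun _ => rfl) hC
  rw [← resAt_levelH1π] at key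
  exact key

end OnePlace

/-! ### the two frozen families -/

section Families

variable {Smin : Finset ℕ}
  [hdisc : ∀ q : Nat.Primes, IsDiscrete (localLevel (primeLocalToGlobal q))
    (Rep.res (primeLocalToGlobal q) (ad0 ρbar p))]
  (𝓛 : ∀ q : Nat.Primes, Submodule (ZMod p) (levelCohomology (localLevel (primeLocalToGlobal q))
    (Rep.res (primeLocalToGlobal q) (ad0 ρbar p)) 1))

/-- **B6, strict-ordinary family** (= the body of `TangentHyp` of `Asm/Top`). -/
theorem tangentHyp_so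
    (hp : TangentAt ρbar p hpk (pPrime p) (fun ρA => ρA.IsStrictOrdinaryAt p) (𝓛 (pPrime p)))
    (hmin : ∀ q : Nat.Primes, (q : ℕ) ∈ Smin → (q : ℕ) ≠ p →
      TangentAt ρbar p hpk q (fun ρA => ρA.IsUnipotentOnInertiaAt (q : ℕ)) (𝓛 q))
    (T : Finset ℕ)
    (DQ : GaloisRep.DeformationRingData 𝒪 ρbar (fun _A _ _ _ ρ =>
      GaloisRep.strictOrdinaryCondition 𝒪 p T ρ ∧
        ∀ q ∈ Smin, q.Prime → q ≠ p → ρ.IsUnipotentOnInertiaAt q))
    [IsDiscrete (globalLevel (primesOf T)) (ad0 ρbar p)]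
    (hdet : DQ.ρ.DetIsCyclotomic p)
    (hur : ∀ q : Nat.Primes, q ∉ primesOf T → DQ.ρ.IsUnramifiedAt (q : ℕ))
    (φ : letI := dualNumberAlgebra 𝒪; DQ.R →ₐ[𝒪] DualNumber (ResidueField 𝒪))
    (q : Nat.Primes) (hq : (q : ℕ) ∈ Smin) :
    resAt (primesOf T) (ad0 ρbar p) q 1 (classOf DQ p hpk hdet (primesOf T) hur φ) ∈ 𝓛 q := by
  letI := dualNumberAlgebra 𝒪
  have hpush : GaloisRep.strictOrdinaryCondition 𝒪 p T (pushRep DQ φ) ∧
      ∀ q ∈ Smin, q.Prime → q ≠ p → (pushRep DQ φ).IsUnipotentOnInertiaAt q :=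
    strictOrdinary_unipotent_baseChangeAlong
      (φ : DQ.R →+* DualNumber (ResidueField 𝒪)) (isLocalHom_algHom_dualNumber DQ φ) DQ.ρ
      DQ.isOfType
  by_cases hqp : (q : ℕ) = p
  · have hqe : q = pPrime p := Subtype.ext hqp
    subst hqe
    exact resAt_classOf_mem_of_tangentAt DQ hdet (primesOf T) hur φ (pPrime p) hp hpush.1.2.1
  · exact resAt_classOf_mem_of_tangentAt DQ hdet (primesOf T) hur φ q (hmin q hq hqp)
      (hpush.2 q hq q.2 hqp)

/-- **B6, flat family** (surjective `φ` only). -/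
theorem tangentHyp_flat
    (hp : TangentAt ρbar p hpk (pPrime p) (fun ρA => ρA.IsFlatAt p) (𝓛 (pPrime p)))
    (hmin : ∀ q : Nat.Primes, (q : ℕ) ∈ Smin → (q : ℕ) ≠ p →
      TangentAt ρbar p hpk q (fun ρA => ρA.IsUnipotentOnInertiaAt (q : ℕ)) (𝓛 q))
    (T : Finset ℕ)
    (DQ : GaloisRep.DeformationRingData 𝒪 ρbar (fun _A _ _ _ ρ =>
      GaloisRep.flatCondition 𝒪 p T ρ ∧
        ∀ q ∈ Smin, q.Prime → q ≠ p → ρ.IsUnipotentOnInertiaAt q))
    [IsDiscrete (globalLevel (primesOf T)) (ad0 ρbar p)]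
    (hdet : DQ.ρ.DetIsCyclotomic p)
    (hur : ∀ q : Nat.Primes, q ∉ primesOf T → DQ.ρ.IsUnramifiedAt (q : ℕ))
    (φ : letI := dualNumberAlgebra 𝒪; DQ.R →ₐ[𝒪] DualNumber (ResidueField 𝒪))
    (hφ : Function.Surjective φ)
    (q : Nat.Primes) (hq : (q : ℕ) ∈ Smin) :
    resAt (primesOf T) (ad0 ρbar p) q 1 (classOf DQ p hpk hdet (primesOf T) hur φ) ∈ 𝓛 q := by
  letI := dualNumberAlgebra 𝒪
  have hpush : GaloisRep.flatCondition 𝒪 p T (pushRep DQ φ) ∧
      ∀ q ∈ Smin, q.Prime → q ≠ p → (pushRep DQ φ).IsUnipotentOnInertiaAt q :=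
    flat_unipotent_baseChangeAlong_of_surjective
      (φ : DQ.R →+* DualNumber (ResidueField 𝒪)) (isLocalHom_algHom_dualNumber DQ φ) DQ.ρ hφ
      DQ.isOfType
  by_cases hqp : (q : ℕ) = p
  · have hqe : q = pPrime p := Subtype.ext hqp
    subst hqe
    exact resAt_classOf_mem_of_tangentAt DQ hdet (primesOf T) hur φ (pPrime p) hp hpush.1.2.1
  · exact resAt_classOf_mem_of_tangentAt DQ hdet (primesOf T) hur φ q (hmin q hq hqp)
      (hpush.2 q hq q.2 hqp)

end Families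

end Fermat.Agent.S56.Tan.Glue
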