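/-
S56 / block B, leaf B6 (helper14): THE PRIME-INDEXED FAMILY OF LOCAL CONDITIONS
`𝓛 q := if q = pPrime p then 𝓛p else 𝓛min q` (board #2570 (C): "helper14 glues"), generic in the
condition `𝓛p` at `p` (`soCond`, `flCond`) and the family `𝓛min` away from `p` (`minCondQ`).

`H q := levelCohomology (localLevel (primeLocalToGlobal q)) (Rep.res (primeLocalToGlobal q) M) 1`
for `M := ad0 ρbar p`.

* `glueCond 𝓛p 𝓛min : ∀ q : Nat.Primes, Submodule (ZMod p) (H q)`; `glueCond_pPrime`,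
  `glueCond_of_ne`, `glueCond_of_coe_ne`, `finrank_glueCond_pPrime`, `finrank_glueCond_of_ne`;
* **`tangentHyp_so_glueCond`**, **`tangentHyp_flat_glueCond`** : the body of `TangentHyp`
  (`Tan/Glue`) for `glueCond`, from the lift-form memberships (`TangentAt`) of `𝓛p` at `pPrime p`
  and of `𝓛min q` at the primes `q ∈ Smin`, `q ≠ p`.
-/
import Mathlib
import Fermat.Agent.S56.Tan.Glue

set_option autoImplicit false
set_option linter.unusedSectionVars false
set_option linter.style.haveILetI false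

namespace Fermat.Agent.S56.Tan.Cond

local notation "Γ" => (AlgebraicClosure ℚ ≃ₐ[ℚ] AlgebraicClosure ℚ)

open IsLocalRing ExtCitation Fermat.Agent.S53 Fermat.Agent.S55.Level Fermat.Agent.S55.Cone
  Fermat.Agent.S55.Assembly Fermat.Agent.S56.Ring Fermat.Agent.S56.Tan.Level
  Fermat.Agent.S56.Tan.Cocycle Fermat.Agent.S56.Tan.Class Fermat.Agent.S56.Tan.Selmer
  Fermat.Agent.S56.Tan.Glue Fermat.Agent.S56.Ad Fermat.Agent.S56.PT.Selmer
  Fermat.Agent.S56.PT.Inflation Fermat.Agent.S56.Places.Level groupCohomology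

/-! ### the glued family, for an arbitrary module -/

section Glue

variable {p : ℕ} [Fact p.Prime] (M : Rep (ZMod p) Γ)
  [hdisc : ∀ q : Nat.Primes, IsDiscrete (localLevel (primeLocalToGlobal q))
    (Rep.res (primeLocalToGlobal q) M)]

/-- The family of local conditions which is `𝓛p` at `pPrime p` and `𝓛min q` at `q ≠ pPrime p`. -/
noncomputable def glueCond
    (𝓛p : Submodule (ZMod p) (levelCohomology (localLevel (primeLocalToGlobal (pPrime p)))
      (Rep.res (primeLocalToGlobal (pPrime p)) M) 1))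
    (𝓛min : ∀ q : Nat.Primes, Submodule (ZMod p)
      (levelCohomology (localLevel (primeLocalToGlobal q)) (Rep.res (primeLocalToGlobal q) M) 1))
    (q : Nat.Primes) :
    Submodule (ZMod p)
      (levelCohomology (localLevel (primeLocalToGlobal q)) (Rep.res (primeLocalToGlobal q) M) 1) :=
  if h : q = pPrime p then h ▸ 𝓛p else 𝓛min q

variable {M}
variable (𝓛p : Submodule (ZMod p) (levelCohomology (localLevel (primeLocalToGlobal (pPrime p)))
    (Rep.res (primeLocalToGlobal (pPrime p)) M) 1))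
  (𝓛min : ∀ q : Nat.Primes, Submodule (ZMod p)
    (levelCohomology (localLevel (primeLocalToGlobal q)) (Rep.res (primeLocalToGlobal q) M) 1))

@[simp] theorem glueCond_pPrime : glueCond M 𝓛p 𝓛min (pPrime p) = 𝓛p := by
  unfold glueCond
  rw [dif_pos rfl]

theorem glueCond_of_ne {q : Nat.Primes} (h : q ≠ pPrime p) : glueCond M 𝓛p 𝓛min q = 𝓛min q := by
  unfold glueCond
  rw [dif_neg h]

theorem glueCond_of_coe_ne {q : Nat.Primes} (h : (q : ℕ) ≠ p) :
    glueCond M 𝓛p 𝓛min q = 𝓛min q :=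
  glueCond_of_ne 𝓛p 𝓛min fun hq => h (by rw [hq]; rfl)

theorem finrank_glueCond_pPrime :
    Module.finrank (ZMod p) (glueCond M 𝓛p 𝓛min (pPrime p)) = Module.finrank (ZMod p) 𝓛p := by
  rw [glueCond_pPrime]

theorem finrank_glueCond_of_ne {q : Nat.Primes} (h : (q : ℕ) ≠ p) :
    Module.finrank (ZMod p) (glueCond M 𝓛p 𝓛min q) = Module.finrank (ZMod p) (𝓛min q) := by
  rw [glueCond_of_coe_ne 𝓛p 𝓛min h]

end Glue

/-! ### the tangent hypothesis for the glued family -/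

section Tangent

variable {𝒪 : Type} [CommRing 𝒪] [IsDomain 𝒪] [IsDiscreteValuationRing 𝒪]
  [IsAdicComplete (maximalIdeal 𝒪) 𝒪] [Finite (ResidueField 𝒪)]
  {ρbar : ResidualGaloisRep (ResidueField 𝒪)}
  {p : ℕ} [Fact p.Prime] [Algebra (ZMod p) (ResidueField 𝒪)]
  {hpk : ((p : ℕ) : ResidueField 𝒪) = 0} {Smin : Finset ℕ}
  [hdisc : ∀ q : Nat.Primes, IsDiscrete (localLevel (primeLocalToGlobal q))
    (Rep.res (primeLocalToGlobal q) (ad0 ρbar p))]
  (𝓛p : Submodule (ZMod p) (levelCohomology (localLevel (primeLocalToGlobal (pPrime p)))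
    (Rep.res (primeLocalToGlobal (pPrime p)) (ad0 ρbar p)) 1))
  (𝓛min : ∀ q : Nat.Primes, Submodule (ZMod p) (levelCohomology (localLevel (primeLocalToGlobal q))
    (Rep.res (primeLocalToGlobal q) (ad0 ρbar p)) 1))

/-- **B6 for the strict-ordinary family and the glued conditions.** -/
theorem tangentHyp_so_glueCond
    (hp : TangentAt ρbar p hpk (pPrime p) (fun ρA => ρA.IsStrictOrdinaryAt p) 𝓛p)
    (hmin : ∀ q : Nat.Primes, (q : ℕ) ∈ Smin → (q : ℕ) ≠ p →
      TangentAt ρbar p hpk q (fun ρA => ρA.IsUnipotentOnInertiaAt (q : ℕ)) (𝓛min q))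
    (T : Finset ℕ)
    (DQ : GaloisRep.DeformationRingData 𝒪 ρbar (fun _A _ _ _ ρ =>
      GaloisRep.strictOrdinaryCondition 𝒪 p T ρ ∧
        ∀ q ∈ Smin, q.Prime → q ≠ p → ρ.IsUnipotentOnInertiaAt q))
    [IsDiscrete (globalLevel (primesOf T)) (ad0 ρbar p)]
    (hdet : DQ.ρ.DetIsCyclotomic p)
    (hur : ∀ q : Nat.Primes, q ∉ primesOf T → DQ.ρ.IsUnramifiedAt (q : ℕ))
    (φ : letI := dualNumberAlgebra 𝒪; DQ.R →ₐ[𝒪] DualNumber (ResidueField 𝒪))
    (q : Nat.Primes) (hq : (q : ℕ) ∈ Smin) :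
    resAt (primesOf T) (ad0 ρbar p) q 1 (classOf DQ p hpk hdet (primesOf T) hur φ) ∈
      glueCond (ad0 ρbar p) 𝓛p 𝓛min q := by
  refine tangentHyp_so (Smin := Smin) (glueCond (ad0 ρbar p) 𝓛p 𝓛min) ?_ ?_ T DQ hdet hur φ q hq
  · rw [glueCond_pPrime]
    exact hp
  · intro q' hq' hq'p
    rw [glueCond_of_coe_ne 𝓛p 𝓛min hq'p]
    exact hmin q' hq' hq'p

/-- **B6 for the flat family and the glued conditions.** -/
theorem tangentHyp_flat_glueCond
    (hp : TangentAt ρbar p hpk (pPrime p) (fun ρA => ρA.IsFlatAt p) 𝓛p)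
    (hmin : ∀ q : Nat.Primes, (q : ℕ) ∈ Smin → (q : ℕ) ≠ p →
      TangentAt ρbar p hpk q (fun ρA => ρA.IsUnipotentOnInertiaAt (q : ℕ)) (𝓛min q))
    (T : Finset ℕ)
    (DQ : GaloisRep.DeformationRingData 𝒪 ρbar (fun _A _ _ _ ρ =>
      GaloisRep.flatCondition 𝒪 p T ρ ∧
        ∀ q ∈ Smin, q.Prime → q ≠ p → ρ.IsUnipotentOnInertiaAt q))
    [IsDiscrete (globalLevel (primesOf T)) (ad0 ρbar p)]
    (hdet : DQ.ρ.DetIsCyclotomic p)
    (hur : ∀ q : Nat.Primes, q ∉ primesOf T → DQ.ρ.IsUnramifiedAt (q : ℕ))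
    (φ : letI := dualNumberAlgebra 𝒪; DQ.R →ₐ[𝒪] DualNumber (ResidueField 𝒪))
    (hφ : Function.Surjective φ)
    (q : Nat.Primes) (hq : (q : ℕ) ∈ Smin) :
    resAt (primesOf T) (ad0 ρbar p) q 1 (classOf DQ p hpk hdet (primesOf T) hur φ) ∈
      glueCond (ad0 ρbar p) 𝓛p 𝓛min q := by
  refine tangentHyp_flat (Smin := Smin) (glueCond (ad0 ρbar p) 𝓛p 𝓛min) ?_ ?_ T DQ hdet hur φ hφ
    q hq
  · rw [glueCond_pPrime]
    exact hp
  · intro q' hq' hq'p
    rw [glueCond_of_coe_ne 𝓛p 𝓛min hq'p]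
    exact hmin q' hq' hq'p

end Tangent

end Fermat.Agent.S56.Tan.Cond
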