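/-
S56 / TAN–LOC glue at `p`, strict-ordinary half, in helper14's interface (`Tan/Selmer.TangentAt`,
fa449e6) (helper19):

* **`tangentAt_soCond`** : `TangentAt ρbar p hpk q (fun ρA => ρA.IsStrictOrdinaryAt p) soCond` for
  `(q : ℕ) = p` — the hypothesis `hp` of `Selmer.exists_surjective_strictOrdinary_of_Sel` via
  `TangentAt.toGlobal`;
* `tangentAtGlobal_soCond` : the global form at `v : (localData Sg).ι` with `(v.1 : ℕ) = p`.
-/
import Mathlib
import Fermat.Agent.S56.Loc.StrictOrdCond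
import Fermat.Agent.S56.Tan.Selmer

set_option autoImplicit false
set_option linter.unusedSectionVars false
set_option linter.style.haveILetI false

namespace Fermat.Agent.S56.Tan.SelmerSOAt

open IsLocalRing Module groupCohomology ExtCitation Fermat.Agent.S53 Fermat.Agent.S55.Level
  Fermat.Agent.S55.Assembly Fermat.Agent.S56.Tan.Cocycle Fermat.Agent.S56.Tan.Selmer
  Fermat.Agent.S56.Ad Fermat.Agent.S56.Loc.StrictOrdCond

local notation "Γ" => (AlgebraicClosure ℚ ≃ₐ[ℚ] AlgebraicClosure ℚ)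

variable {𝒪 : Type} [CommRing 𝒪] [IsDomain 𝒪] [IsDiscreteValuationRing 𝒪]
  [IsAdicComplete (maximalIdeal 𝒪) 𝒪] [Finite (ResidueField 𝒪)]
  {ρbar : ResidualGaloisRep (ResidueField 𝒪)}
  {p : ℕ} [Fact p.Prime] [Algebra (ZMod p) (ResidueField 𝒪)]
  {hpk : ((p : ℕ) : ResidueField 𝒪) = 0}

/-- **E-SO in the local interface of B6**: `soCond` contains the classes of all strict-ordinary
lifts of `ρ̄` to `k[ε]` with cyclotomic determinant. -/
theorem tangentAt_soCond (h2 : (2 : ResidueField 𝒪) ≠ 0) (hp2 : p ≠ 2)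
    (hdetbar : (GaloisRepAdic.ofResidualGaloisRep ρbar).DetIsCyclotomic p)
    (q : Nat.Primes) (hq : (q : ℕ) = p)
    [IsDiscrete (localLevel (primeLocalToGlobal q)) (Rep.res (primeLocalToGlobal q) (ad0 ρbar p))] :
    TangentAt ρbar p hpk q (fun ρA => ρA.IsStrictOrdinaryAt p)
      (soCond ρbar p q (localLevel (primeLocalToGlobal q))) :=
  fun _ρA m hdetA z hz hC =>
    levelH1π_mem_soCond (localLevel (primeLocalToGlobal q)) m hpk h2 hdetA hp2 hdetbar hq hC z hz

/-- the global form, at a place `v` of `localData Sg` over `p` -/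
theorem tangentAtGlobal_soCond (h2 : (2 : ResidueField 𝒪) ≠ 0) (hp2 : p ≠ 2)
    (hdetbar : (GaloisRepAdic.ofResidualGaloisRep ρbar).DetIsCyclotomic p)
    (Sg : Finset Nat.Primes) [IsDiscrete (globalLevel Sg) (ad0 ρbar p)]
    (v : (localData Sg).ι) (hv : ((v.1 : Nat.Primes) : ℕ) = p) :
    haveI := Fermat.Agent.S56.PT.Inflation.isDiscrete_local Sg (ad0 ρbar p) v.1
    TangentAtGlobal ρbar p hpk Sg v (fun ρA => ρA.IsStrictOrdinaryAt p)
      (soCond ρbar p v.1 (localLevel (primeLocalToGlobal v.1))) :=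
  haveI := Fermat.Agent.S56.PT.Inflation.isDiscrete_local Sg (ad0 ρbar p) v.1
  TangentAt.toGlobal Sg v (tangentAt_soCond h2 hp2 hdetbar v.1 hv)

end Fermat.Agent.S56.Tan.SelmerSOAt
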