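/-
S56 / TAN–FLAT glue at `p` (helper17): **the FLAT local leaf of record in the consumer shape of B6**
(`Tan/Selmer.TangentAt`, helper14) for `Bridge.Final.flSpan` (the span of the classes of the flat
lifts; its dimension bound `hdim_p_fl` is `Bridge.Final.finrank_flSpan_add_le_local`, valid for all
`p ≠ 2`).
-/
import Mathlib
import Fermat.Agent.S56.Tan.Selmer
import Fermat.Agent.S56.Flat.Bridge.Final

set_option autoImplicit false
set_option linter.unusedSectionVars false

namespace Fermat.Agent.S56.Tan.SelmerFlatSpan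

open IsLocalRing ExtCitation Fermat.Agent.S53 Fermat.Agent.S55.Level
  Fermat.Agent.S56.Tan.Cocycle Fermat.Agent.S56.Tan.Selmer Fermat.Agent.S56.Ad
  Fermat.Agent.S56.Flat.Bridge.Final

variable {𝒪 : Type} [CommRing 𝒪] [IsDomain 𝒪] [IsDiscreteValuationRing 𝒪]
  [IsAdicComplete (maximalIdeal 𝒪) 𝒪] [Finite (ResidueField 𝒪)]
  (ρbar : ResidualGaloisRep (ResidueField 𝒪))
  (p : ℕ) [Fact p.Prime] [Algebra (ZMod p) (ResidueField 𝒪)]
  (hpk : ((p : ℕ) : ResidueField 𝒪) = 0)

/-- **FLAT leaf of record, B6 shape**: `TangentAt` at `q = pPrime p` for the property "flat at `p`"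
and the flat condition `flSpan`. -/
theorem tangentAt_flSpan
    [hM : IsDiscrete (localLevel (primeLocalToGlobal (pPrime p)))
      (Rep.res (primeLocalToGlobal (pPrime p)) (ad0 ρbar p))] :
    TangentAt ρbar p hpk (pPrime p) (fun ρA => ρA.IsFlatAt p)
      (@flSpan (ResidueField 𝒪) _ ρbar p _ _ hpk (localLevel (primeLocalToGlobal (pPrime p))) hM) :=
  fun _ρA m hdetA z hz hfl =>
    @levelH1π_mem_flSpan (ResidueField 𝒪) _ ρbar p _ _ hpk
      (localLevel (primeLocalToGlobal (pPrime p))) hM _ m hdetA hfl z hz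

end Fermat.Agent.S56.Tan.SelmerFlatSpan
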