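/-
S56 / block B, leaf B6, FINAL FORM (helper14): the two concrete prime-indexed families of local
conditions of S56 and their tangent hypotheses, from the FROZEN hypotheses only.

`M := ad0 ρbar p`, `M' := ad0' ρbar p`, `H q X n := levelCohomology (localLevel (primeLocalToGlobal q))
(Rep.res (primeLocalToGlobal q) X) n`.

(All statements take `[Module.Finite (ZMod p) (ResidueField 𝒪)]` as an instance argument, as
`MinimalPrime` does; consumers: `haveI : Module.Finite (ZMod p) (ResidueField 𝒪) :=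
Module.Finite.of_finite`.)

* `two_ne_zero_of_ne_two` : `(2 : k) ≠ 0` from `p ≠ 2`, `(p : k) = 0`;
* `tangentAt_minCondQ` : E-MIN (helper16 `MinimalPrime.levelH1π_mem_minCondQ_of_lift`) in
  `TangentAt` form;
* **`condSO ρbar p`**, **`condFlat ρbar p`** `: ∀ q : Nat.Primes, Submodule (ZMod p) (H q M 1)` :=
  `soCond` (helper19) resp. `flCond` (helper17) at `pPrime p`, `minCondQ` (helper16) elsewhere;
  `condSO_pPrime`, `condSO_of_ne`, `condFlat_pPrime`, `condFlat_of_ne`;
* **`tangentHyp_condSO`**, **`tangentHyp_condFlat`** : for every `T`, every `DQ` of the frozen type,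
  every (surjective) `φ : DQ.R → k[ε]` and every prime `q ∈ Smin`:
  `res_q (classOf φ) ∈ condSO ρbar p q` (resp. `condFlat`) — hypotheses: `p ≠ 2`, `(p : k) = 0`,
  `det ρ̄` cyclotomic (SO only), and the frozen `hmin`;
* `hdim_min_condSO`, `hdim_min_condFlat`, `hdim_p_condSO`, `hdim_p_condFlat` : the dimension
  hypotheses of `Asm/Bound` for the two families (`hLEC`, `hFLC` named).
-/
import Mathlib
import Fermat.Agent.S56.Tan.Cond
import Fermat.Agent.S56.Tan.SelmerFlat
import Fermat.Agent.S56.Loc.MinimalPrime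
import Fermat.Agent.S56.Flat.Bridge.Main

set_option autoImplicit false
set_option linter.unusedSectionVars false
set_option linter.style.haveILetI false

namespace Fermat.Agent.S56.Tan.GlueSO

local notation "Γ" => (AlgebraicClosure ℚ ≃ₐ[ℚ] AlgebraicClosure ℚ)

open IsLocalRing ExtCitation Module Fermat.Agent.S53 Fermat.Agent.S55.Level Fermat.Agent.S55.Cone
  Fermat.Agent.S55.Assembly Fermat.Agent.S56.Ring Fermat.Agent.S56.Tan.Level
  Fermat.Agent.S56.Tan.Cocycle Fermat.Agent.S56.Tan.Class Fermat.Agent.S56.Tan.Selmer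
  Fermat.Agent.S56.Tan.Glue Fermat.Agent.S56.Tan.Cond Fermat.Agent.S56.Ad
  Fermat.Agent.S56.PT.Selmer Fermat.Agent.S56.PT.Inflation Fermat.Agent.S56.Places.Level
  Fermat.Agent.S56.Loc.MinimalPrime Fermat.Agent.S56.Loc.StrictOrdCond
  Fermat.Agent.S56.Flat.Bridge.Member Fermat.Agent.S56.Flat.Bridge.Compositum groupCohomology

/-- `(2 : k) ≠ 0` in a field where `(p : k) = 0` for an odd prime `p`. -/
theorem two_ne_zero_of_ne_two {k : Type*} [Field k] {p : ℕ} [Fact p.Prime] (hp2 : p ≠ 2)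
    (hpk : ((p : ℕ) : k) = 0) : (2 : k) ≠ 0 := by
  intro h2
  haveI : CharP k p := (CharP.charP_iff_prime_eq_zero (Fact.out : p.Prime)).2 hpk
  have h : ((2 : ℕ) : k) = 0 := by exact_mod_cast h2
  rw [CharP.cast_eq_zero_iff k p 2] at h
  exact hp2 ((Nat.prime_dvd_prime_iff_eq (Fact.out : p.Prime) Nat.prime_two).1 h)

variable {𝒪 : Type} [CommRing 𝒪] [IsDomain 𝒪] [IsDiscreteValuationRing 𝒪]
  [IsAdicComplete (maximalIdeal 𝒪) 𝒪] [Finite (ResidueField 𝒪)]
  (ρbar : ResidualGaloisRep (ResidueField 𝒪))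
  (p : ℕ) [Fact p.Prime] [Algebra (ZMod p) (ResidueField 𝒪)]
  [hfin : Module.Finite (ZMod p) (ResidueField 𝒪)]
  [hM : ∀ q : Nat.Primes, IsDiscrete (localLevel (primeLocalToGlobal q))
    (Rep.res (primeLocalToGlobal q) (ad0 ρbar p))]
  [hM' : ∀ q : Nat.Primes, IsDiscrete (localLevel (primeLocalToGlobal q))
    (Rep.res (primeLocalToGlobal q) (ad0' ρbar p))]

/-! ### E-MIN in `TangentAt` form -/

/-- **E-MIN in `TangentAt` form.** -/
theorem tangentAt_minCondQ {hpk : ((p : ℕ) : ResidueField 𝒪) = 0} (h2 : (2 : ResidueField 𝒪) ≠ 0)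
    (q : Nat.Primes) (hqp : (q : ℕ) ≠ p) (hram : ¬ ρbar.IsUnramifiedAt (q : ℕ)) :
    TangentAt ρbar p hpk q (fun ρA => ρA.IsUnipotentOnInertiaAt (q : ℕ)) (minCondQ ρbar p q) :=
  fun _ m hdetA z hz hC =>
    levelH1π_mem_minCondQ_of_lift ρbar p q h2 hpk hqp hram m hdetA hC z hz

/-! ### the two families -/

/-- **The strict-ordinary family of local conditions**: `soCond` at `p`, `minCondQ` elsewhere. -/
noncomputable def condSO (q : Nat.Primes) :
    Submodule (ZMod p) (levelCohomology (localLevel (primeLocalToGlobal q))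
      (Rep.res (primeLocalToGlobal q) (ad0 ρbar p)) 1) :=
  glueCond (ad0 ρbar p)
    (soCond ρbar p (pPrime p) (localLevel (primeLocalToGlobal (pPrime p))))
    (fun q => minCondQ ρbar p q) q

/-- **The flat family of local conditions**: `flCond` at `p`, `minCondQ` elsewhere. -/
noncomputable def condFlat (q : Nat.Primes) :
    Submodule (ZMod p) (levelCohomology (localLevel (primeLocalToGlobal q))
      (Rep.res (primeLocalToGlobal q) (ad0 ρbar p)) 1) :=
  glueCond (ad0 ρbar p)
    (@flCond (ResidueField 𝒪) _ ρbar p _ _ (localLevel (primeLocalToGlobal (pPrime p)))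
      (hM (pPrime p)))
    (fun q => minCondQ ρbar p q) q

theorem condSO_pPrime :
    condSO ρbar p (pPrime p) =
      soCond ρbar p (pPrime p) (localLevel (primeLocalToGlobal (pPrime p))) :=
  glueCond_pPrime _ _

theorem condSO_of_ne {q : Nat.Primes} (h : (q : ℕ) ≠ p) :
    condSO ρbar p q =
      minCondQ ρbar p q :=
  glueCond_of_coe_ne _ _ h

theorem condFlat_pPrime :
    condFlat ρbar p (pPrime p) =
      @flCond (ResidueField 𝒪) _ ρbar p _ _ (localLevel (primeLocalToGlobal (pPrime p)))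
        (hM (pPrime p)) :=
  glueCond_pPrime _ _

theorem condFlat_of_ne {q : Nat.Primes} (h : (q : ℕ) ≠ p) :
    condFlat ρbar p q =
      minCondQ ρbar p q :=
  glueCond_of_coe_ne _ _ h

/-! ### the tangent hypotheses, from the frozen hypotheses -/

section Tangent

variable {ρbar p} {Smin : Finset ℕ}

/-- **B6, strict-ordinary half, FINAL**: `res_q (classOf φ) ∈ condSO ρbar p q` for all `q ∈ Smin`. -/
theorem tangentHyp_condSO (hp2 : p ≠ 2) (hpk : ((p : ℕ) : ResidueField 𝒪) = 0)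
    (hdetbar : (GaloisRepAdic.ofResidualGaloisRep ρbar).DetIsCyclotomic p)
    (hmin : ∀ q : ℕ, q.Prime → q ≠ p → (q ∈ Smin ↔ ¬ ρbar.IsUnramifiedAt q))
    (T : Finset ℕ)
    (DQ : GaloisRep.DeformationRingData 𝒪 ρbar (fun _A _ _ _ ρ =>
      GaloisRep.strictOrdinaryCondition 𝒪 p T ρ ∧
        ∀ q ∈ Smin, q.Prime → q ≠ p → ρ.IsUnipotentOnInertiaAt q))
    [IsDiscrete (globalLevel (primesOf T)) (ad0 ρbar p)]
    (hdet : DQ.ρ.DetIsCyclotomic p)
    (hur : ∀ q : Nat.Primes, q ∉ primesOf T → DQ.ρ.IsUnramifiedAt (q : ℕ))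
    (φ : letI := dualNumberAlgebra 𝒪; DQ.R →ₐ[𝒪] DualNumber (ResidueField 𝒪))
    (q : Nat.Primes) (hq : (q : ℕ) ∈ Smin) :
    resAt (primesOf T) (ad0 ρbar p) q 1 (classOf DQ p hpk hdet (primesOf T) hur φ) ∈
      condSO ρbar p q := by
  have h2 : (2 : ResidueField 𝒪) ≠ 0 := two_ne_zero_of_ne_two hp2 hpk
  exact tangentHyp_so_glueCond (Smin := Smin) _ _
    (tangentAt_soCond hp2 h2 hdetbar (pPrime p) rfl)
    (fun q' hq' hq'p => tangentAt_minCondQ ρbar p h2 q' hq'p ((hmin q' q'.2 hq'p).1 hq'))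
    T DQ hdet hur φ q hq

/-- **B6, flat half, FINAL**: `res_q (classOf φ) ∈ condFlat ρbar p q` for all `q ∈ Smin`
(`φ` surjective). -/
theorem tangentHyp_condFlat (hp2 : p ≠ 2) (hpk : ((p : ℕ) : ResidueField 𝒪) = 0)
    (hmin : ∀ q : ℕ, q.Prime → q ≠ p → (q ∈ Smin ↔ ¬ ρbar.IsUnramifiedAt q))
    (T : Finset ℕ)
    (DQ : GaloisRep.DeformationRingData 𝒪 ρbar (fun _A _ _ _ ρ =>
      GaloisRep.flatCondition 𝒪 p T ρ ∧
        ∀ q ∈ Smin, q.Prime → q ≠ p → ρ.IsUnipotentOnInertiaAt q))
    [IsDiscrete (globalLevel (primesOf T)) (ad0 ρbar p)]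
    (hdet : DQ.ρ.DetIsCyclotomic p)
    (hur : ∀ q : Nat.Primes, q ∉ primesOf T → DQ.ρ.IsUnramifiedAt (q : ℕ))
    (φ : letI := dualNumberAlgebra 𝒪; DQ.R →ₐ[𝒪] DualNumber (ResidueField 𝒪))
    (hφ : Function.Surjective φ)
    (q : Nat.Primes) (hq : (q : ℕ) ∈ Smin) :
    resAt (primesOf T) (ad0 ρbar p) q 1 (classOf DQ p hpk hdet (primesOf T) hur φ) ∈
      condFlat ρbar p q := by
  have h2 : (2 : ResidueField 𝒪) ≠ 0 := two_ne_zero_of_ne_two hp2 hpk
  exact tangentHyp_flat_glueCond (Smin := Smin) _ _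
    (Fermat.Agent.S56.Tan.SelmerFlat.tangentAt_flCond ρbar p hpk)
    (fun q' hq' hq'p => tangentAt_minCondQ ρbar p h2 q' hq'p ((hmin q' q'.2 hq'p).1 hq'))
    T DQ hdet hur φ hφ q hq

end Tangent

/-! ### the dimension hypotheses of `Asm/Bound` -/

section Dim

variable {ρbar p}

/-- `hdim_min` for `condSO` (equality in fact). -/
theorem hdim_min_condSO (hp2 : p ≠ 2) (S : Finset Nat.Primes)
    [IsDiscrete (globalLevel S) (ofChar (k := ZMod p) (cycloChar p))]
    [IsDiscrete (globalLevel S) (ad0 ρbar p)] [IsDiscrete (globalLevel S) (ad0' ρbar p)]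
    (hpS : pPrime p ∈ S) (q : Nat.Primes) (hq : q ∈ S) (hqp : (q : ℕ) ≠ p) :
    finrank (ZMod p) (condSO ρbar p q) +
        finrank (ZMod p) (levelCohomology (localLevel (primeLocalToGlobal q))
          (Rep.res (primeLocalToGlobal q) (ad0' ρbar p)) 0) ≤
      finrank (ZMod p) (levelCohomology (localLevel (primeLocalToGlobal q))
        (Rep.res (primeLocalToGlobal q) (ad0 ρbar p)) 1) := by
  rw [condSO_of_ne ρbar p hqp]
  exact finrank_minCondQ_add_le ρbar p S hp2 hpS q hq

/-- `hdim_min` for `condFlat`. -/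
theorem hdim_min_condFlat (hp2 : p ≠ 2) (S : Finset Nat.Primes)
    [IsDiscrete (globalLevel S) (ofChar (k := ZMod p) (cycloChar p))]
    [IsDiscrete (globalLevel S) (ad0 ρbar p)] [IsDiscrete (globalLevel S) (ad0' ρbar p)]
    (hpS : pPrime p ∈ S) (q : Nat.Primes) (hq : q ∈ S) (hqp : (q : ℕ) ≠ p) :
    finrank (ZMod p) (condFlat ρbar p q) +
        finrank (ZMod p) (levelCohomology (localLevel (primeLocalToGlobal q))
          (Rep.res (primeLocalToGlobal q) (ad0' ρbar p)) 0) ≤
      finrank (ZMod p) (levelCohomology (localLevel (primeLocalToGlobal q))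
        (Rep.res (primeLocalToGlobal q) (ad0 ρbar p)) 1) := by
  rw [condFlat_of_ne ρbar p hqp]
  exact finrank_minCondQ_add_le ρbar p S hp2 hpS q hq

/-- `hdim_p` for `condSO`, from the local Euler characteristic formula `hLEC` (named). -/
theorem hdim_p_condSO (hp2 : p ≠ 2) (hpk : ((p : ℕ) : ResidueField 𝒪) = 0)
    (hLEC : ∀ (Y : Rep (ZMod p) (primeLocalGaloisGroup (pPrime p)))
      [IsDiscrete (localLevel (primeLocalToGlobal (pPrime p))) Y] [FiniteDimensional (ZMod p) Y],
      finrank (ZMod p) (levelCohomology (localLevel (primeLocalToGlobal (pPrime p))) Y 1)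
        = finrank (ZMod p) Y
          + finrank (ZMod p) (levelCohomology (localLevel (primeLocalToGlobal (pPrime p))) Y 0)
          + finrank (ZMod p) (levelCohomology (localLevel (primeLocalToGlobal (pPrime p))) Y 2)) :
    finrank (ZMod p) (condSO ρbar p (pPrime p))
        + finrank (ZMod p) (levelCohomology (localLevel (primeLocalToGlobal (pPrime p)))
            (Rep.res (primeLocalToGlobal (pPrime p)) (ad0' ρbar p)) 0)
        + 2 * finrank (ZMod p) (ResidueField 𝒪)
      ≤ finrank (ZMod p) (levelCohomology (localLevel (primeLocalToGlobal (pPrime p)))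
          (Rep.res (primeLocalToGlobal (pPrime p)) (ad0 ρbar p)) 1) := by
  rw [condSO_pPrime]
  exact finrank_soCond_add_le_local p hp2 (two_ne_zero_of_ne_two hp2 hpk) hLEC

/-- `hdim_p` for `condFlat`, from `hLEC` and the finite-level counts `hFLC` (both named). -/
theorem hdim_p_condFlat (hp2 : p ≠ 2) (hpk : ((p : ℕ) : ResidueField 𝒪) = 0)
    (hLEC : ∀ (Y : Rep (ZMod p) (primeLocalGaloisGroup (pPrime p)))
      [IsDiscrete (localLevel (primeLocalToGlobal (pPrime p))) Y] [FiniteDimensional (ZMod p) Y],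
      finrank (ZMod p) (levelCohomology (localLevel (primeLocalToGlobal (pPrime p))) Y 1)
        = finrank (ZMod p) Y
          + finrank (ZMod p) (levelCohomology (localLevel (primeLocalToGlobal (pPrime p))) Y 0)
          + finrank (ZMod p) (levelCohomology (localLevel (primeLocalToGlobal (pPrime p))) Y 2))
    (hFLC : ∀ (L : IntermediateField ℚ_[p] (PadicAlgCl p))
      (hL : L ∈ flatFamily p (trivSubgroup ρbar p)),
      finrank (ResidueField 𝒪) (H1 (Fermat.Agent.S56.Flat.Bridge.Main.adL ρbar p L hL)) ≤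
        finrank (ResidueField 𝒪) (H0 (Fermat.Agent.S56.Flat.Bridge.Main.adL ρbar p L hL)) + 1) :
    finrank (ZMod p) (condFlat ρbar p (pPrime p))
        + finrank (ZMod p) (levelCohomology (localLevel (primeLocalToGlobal (pPrime p)))
            (Rep.res (primeLocalToGlobal (pPrime p)) (ad0' ρbar p)) 0)
        + 2 * finrank (ZMod p) (ResidueField 𝒪)
      ≤ finrank (ZMod p) (levelCohomology (localLevel (primeLocalToGlobal (pPrime p)))
          (Rep.res (primeLocalToGlobal (pPrime p)) (ad0 ρbar p)) 1) := by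
  rw [condFlat_pPrime]
  exact Fermat.Agent.S56.Flat.Bridge.Main.finrank_flCond_add_le_local hp2
    (two_ne_zero_of_ne_two hp2 hpk) hLEC hFLC

end Dim

end Fermat.Agent.S56.Tan.GlueSO
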