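/-
S56 / TAN–LOC glue at `p`, strict-ordinary half (helper19): **the local class at `p` of a
dual-number point of a deformation ring of strict-ordinary type lies in `soCond`** — the one-call
form of the `q = pPrime p` case of `TangentHyp` (`Asm/Top`, B6) for
`𝒟 := fun ρ => strictOrdinaryCondition 𝒪 p T ρ ∧ (unipotent on inertia at Smin ∖ p)`.

* `resAt_classOf_mem_soCond_of_isStrictOrdinaryAt` : generic `𝒟`, the strict-ordinarity of `DQ.ρ`
  as a hypothesis;
* **`resAt_classOf_mem_soCond`** : the frozen shape of S56.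
-/
import Mathlib
import Fermat.Agent.S56.Loc.StrictOrdCond
import Fermat.Agent.S56.Tan.Class
import Fermat.Agent.S56.PT.Inflation

set_option autoImplicit false
set_option linter.unusedSectionVars false
set_option linter.style.haveILetI false

namespace Fermat.Agent.S56.Tan.SelmerSO

open IsLocalRing Module groupCohomology ExtCitation Fermat.Agent.S53 Fermat.Agent.S55.Level
  Fermat.Agent.S56.Ring Fermat.Agent.S56.Tan.Level Fermat.Agent.S56.Tan.Cocycle
  Fermat.Agent.S56.Tan.Class Fermat.Agent.S56.Ad Fermat.Agent.S56.PT.Inflation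
  Fermat.Agent.S56.Loc.StrictOrdCond Fermat.Agent.S56.Loc.BorelCore

local notation "Γ" => (AlgebraicClosure ℚ ≃ₐ[ℚ] AlgebraicClosure ℚ)

variable {𝒪 : Type} [CommRing 𝒪] [IsDomain 𝒪] [IsDiscreteValuationRing 𝒪]
  [IsAdicComplete (maximalIdeal 𝒪) 𝒪] [Finite (ResidueField 𝒪)]
  {ρbar : ResidualGaloisRep (ResidueField 𝒪)}
  {p : ℕ} [Fact p.Prime] [Algebra (ZMod p) (ResidueField 𝒪)]

/-- generic `𝒟`: if the universal representation is strict-ordinary at `p`, the local class at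
`q` (`q = p`) of every dual-number point lies in `soCond`. -/
theorem resAt_classOf_mem_soCond_of_isStrictOrdinaryAt
    {𝒟 : ∀ ⦃A : Type⦄ [CommRing A] [IsLocalRing A] [Algebra 𝒪 A], GaloisRepAdic A → Prop}
    (DQ : GaloisRep.DeformationRingData 𝒪 ρbar 𝒟)
    (hpk : ((p : ℕ) : ResidueField 𝒪) = 0) (h2 : (2 : ResidueField 𝒪) ≠ 0) (hp2 : p ≠ 2)
    (hdetbar : (GaloisRepAdic.ofResidualGaloisRep ρbar).DetIsCyclotomic p)
    (hdet : DQ.ρ.DetIsCyclotomic p) (hso : DQ.ρ.IsStrictOrdinaryAt p)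
    (Sg : Finset Nat.Primes) [IsDiscrete (globalLevel Sg) (ad0 ρbar p)]
    (hur : ∀ q : Nat.Primes, q ∉ Sg → DQ.ρ.IsUnramifiedAt (q : ℕ))
    (q : Nat.Primes) (hq : (q : ℕ) = p)
    (φ : letI := dualNumberAlgebra 𝒪; DQ.R →ₐ[𝒪] DualNumber (ResidueField 𝒪)) :
    haveI := isDiscrete_local Sg (ad0 ρbar p) q
    resAt Sg (ad0 ρbar p) q 1 (classOf DQ p hpk hdet Sg hur φ)
      ∈ soCond ρbar p q (localLevel (primeLocalToGlobal q)) := by
  letI := dualNumberAlgebra 𝒪
  haveI := isDiscrete_local Sg (ad0 ρbar p) q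
  have hso' : (pushRep DQ φ).IsStrictOrdinaryAt p :=
    isStrictOrdinaryAt_baseChangeAlong (φ : DQ.R →+* DualNumber (ResidueField 𝒪))
      (isLocalHom_algHom_dualNumber DQ φ) DQ.ρ hso
  show resAt Sg (ad0 ρbar p) q 1
      (levelH1π (globalLevel Sg) (ad0 ρbar p) (levelCocycleOf DQ p hpk hdet Sg hur φ)) ∈ _
  rw [resAt_levelH1π]
  exact levelH1π_mem_soCond (localLevel (primeLocalToGlobal q)) (pushModel DQ φ) hpk h2
    (pushRep_detIsCyclotomic DQ hdet φ) hp2 hdetbar hq hso'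
    (resCocycle Sg (ad0 ρbar p) q (levelCocycleOf DQ p hpk hdet Sg hur φ)) (fun τ => rfl)

/-- **the frozen shape of S56 (strict-ordinary half)**: for a deformation ring `DQ` of type
"strict-ordinary at `p`, cyclotomic determinant, unramified outside `T`, unipotent on inertia at
`Smin ∖ p`", `Sg ⊇ primes of T`, the local class at `q = p` of every dual-number point lies in
`soCond`.  (`hdet`, `hur` are those of `Class.exists_surjective_strictOrdinary_of_classOf_mem`.) -/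
theorem resAt_classOf_mem_soCond {T Smin : Finset ℕ}
    (DQ : GaloisRep.DeformationRingData 𝒪 ρbar (fun _A _ _ _ ρ =>
      GaloisRep.strictOrdinaryCondition 𝒪 p T ρ ∧
        ∀ q ∈ Smin, q.Prime → q ≠ p → ρ.IsUnipotentOnInertiaAt q))
    (hpk : ((p : ℕ) : ResidueField 𝒪) = 0) (h2 : (2 : ResidueField 𝒪) ≠ 0) (hp2 : p ≠ 2)
    (hdetbar : (GaloisRepAdic.ofResidualGaloisRep ρbar).DetIsCyclotomic p)
    (Sg : Finset Nat.Primes) (hSg : ∀ q : Nat.Primes, q ∉ Sg → (q : ℕ) ∉ T)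
    [IsDiscrete (globalLevel Sg) (ad0 ρbar p)]
    (q : Nat.Primes) (hq : (q : ℕ) = p)
    (φ : letI := dualNumberAlgebra 𝒪; DQ.R →ₐ[𝒪] DualNumber (ResidueField 𝒪)) :
    haveI := isDiscrete_local Sg (ad0 ρbar p) q
    resAt Sg (ad0 ρbar p) q 1
        (classOf DQ p hpk DQ.isOfType.1.1 Sg
          (fun q hq => DQ.isOfType.1.2.2 q q.2 (hSg q hq)) φ)
      ∈ soCond ρbar p q (localLevel (primeLocalToGlobal q)) :=
  resAt_classOf_mem_soCond_of_isStrictOrdinaryAt DQ hpk h2 hp2 hdetbar DQ.isOfType.1.1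
    DQ.isOfType.1.2.1 Sg (fun q hq => DQ.isOfType.1.2.2 q q.2 (hSg q hq)) q hq φ

end Fermat.Agent.S56.Tan.SelmerSO
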