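/-
S56 (Taylor–Wiles primes), block TAN, leaf B4b part 1 (helper14): the universal strict matrix
model and its push-forwards to the dual numbers.

For `DQ : GaloisRep.DeformationRingData 𝒪 ρbar 𝒟`:
* `exists_univ_model`: a strict continuous matrix model `Mu : Γ →* M₂(DQ.R)` of `DQ.ρ`;
* for an `𝒪`-algebra hom `φ : DQ.R → A` (local): `mapMat φ Mu` is a strict continuous matrix model
  of the push-forward `DQ.ρ.baseChangeAlong φ` (`pushModel_*`);
* unramifiedness passes to the matrix model (`isUnramifiedAt_pushModel`), hence every function of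
  `g` depending only on `mapMat φ Mu g` is `IsLevel₁ (globalLevel Sg)` when `DQ.ρ` is unramified
  outside `Sg` and `𝔪_A` is nilpotent (`isLevel₁_pushModel`);
* equivalence of the matrix models gives equivalence of the push-forwards
  (`baseChangeAlong_isEquiv_of_pushModel`).
-/
import Fermat.Agent.S56.Tan.Level
import Fermat.Agent.S56.Ring.Tangent
import Fermat.Agent.S56.Ring.CondBaseChange

set_option autoImplicit false
set_option linter.unusedSectionVars false
set_option linter.style.haveILetI false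

noncomputable section

namespace Fermat.Agent.S56.Tan.Univ

local notation "Γ" => (AlgebraicClosure ℚ ≃ₐ[ℚ] AlgebraicClosure ℚ)

open IsLocalRing Fermat.Agent.S53 Fermat.Agent.S55.Level Fermat.Agent.S56.Ring
  Fermat.Agent.S56.Tan.Level

variable {𝒪 : Type} [CommRing 𝒪] [IsDomain 𝒪] [IsDiscreteValuationRing 𝒪]
  [IsAdicComplete (maximalIdeal 𝒪) 𝒪]
  {ρbar : ResidualGaloisRep (ResidueField 𝒪)}
  {𝒟 : ∀ ⦃A : Type⦄ [CommRing A] [IsLocalRing A] [Algebra 𝒪 A], GaloisRepAdic A → Prop}
  (DQ : GaloisRep.DeformationRingData 𝒪 ρbar 𝒟)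

/-- A strict continuous matrix model of the universal representation. -/
structure UnivModel where
  /-- the matrices -/
  M : GQ →* M2 DQ.R
  cont : MatCont M
  strict : Strict (resMat ρbar) M
  isEquiv : DQ.ρ.IsEquiv (ofMat M cont)

theorem exists_univModel : Nonempty (UnivModel DQ) := by
  obtain ⟨M, hM, hs, he⟩ := exists_strict_of_residual_isEquiv ρbar DQ.ρ DQ.residual_isEquiv
  exact ⟨⟨M, hM, hs, he⟩⟩

variable {DQ} (U : UnivModel DQ)
  {A : Type} [CommRing A] [IsLocalRing A] [Algebra 𝒪 A]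
  (φ : DQ.R →ₐ[𝒪] A)

/-- The push-forward of the universal matrices. -/
def pushModel : GQ →* M2 A := mapMat (φ : DQ.R →+* A) U.M

theorem pushModel_apply (σ : Γ) (i j : Fin 2) : pushModel U φ σ i j = φ (U.M σ i j) := rfl

theorem matCont_pushModel (hφ : IsLocalHom (φ : DQ.R →+* A)) : MatCont (pushModel U φ) :=
  matCont_mapMat (φ : DQ.R →+* A) hφ U.M U.cont

theorem strict_pushModel (hφ : IsLocalHom (φ : DQ.R →+* A)) :
    Strict (resMat ρbar) (pushModel U φ) := U.strict.map φ hφ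

/-- The push-forward of `DQ.ρ` along `φ` is equivalent to the matrix model `mapMat φ Mu`. -/
theorem baseChangeAlong_isEquiv_pushModel (hφ : IsLocalHom (φ : DQ.R →+* A)) :
    (DQ.ρ.baseChangeAlong (φ : DQ.R →+* A) hφ).IsEquiv
      (ofMat (pushModel U φ) (matCont_pushModel U φ hφ)) := by
  obtain ⟨e⟩ := U.isEquiv
  obtain ⟨e₂⟩ := ofMat_baseChangeAlong_isEquiv (φ : DQ.R →+* A) hφ U.M U.cont
    (matCont_pushModel U φ hφ)
  exact ⟨(e.baseChangeAlong (φ : DQ.R →+* A) hφ).trans e₂⟩

/-- Unramifiedness of `DQ.ρ` passes to the pushed matrix model. -/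
theorem isUnramifiedAt_pushModel (hφ : IsLocalHom (φ : DQ.R →+* A)) {q : ℕ}
    (hq : DQ.ρ.IsUnramifiedAt q) :
    (ofMat (pushModel U φ) (matCont_pushModel U φ hφ)).IsUnramifiedAt q :=
  isUnramifiedAt_of_isEquiv (baseChangeAlong_isEquiv_pushModel U φ hφ)
    (isUnramifiedAt_baseChangeAlong (φ : DQ.R →+* A) hφ DQ.ρ hq)

/-- **Level-constancy of everything that factors through the pushed matrices.** -/
theorem isLevel₁_pushModel (hφ : IsLocalHom (φ : DQ.R →+* A)) (Sg : Finset Nat.Primes)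
    (hur : ∀ q : Nat.Primes, q ∉ Sg → DQ.ρ.IsUnramifiedAt (q : ℕ)) {n : ℕ}
    (hn : maximalIdeal A ^ n = ⊥) {X : Type*} (f : Γ → X)
    (hf : ∀ g g' : Γ, pushModel U φ g = pushModel U φ g' → f g = f g') :
    IsLevel₁ (globalLevel Sg) f :=
  isLevel₁_of_factors Sg (pushModel U φ) (matCont_pushModel U φ hφ) hn
    (fun q hq => isUnramifiedAt_pushModel U φ hφ (hur q hq)) f hf

/-- Equivalent pushed matrix models give equivalent push-forwards. -/
theorem baseChangeAlong_isEquiv_of_pushModel (hφ : IsLocalHom (φ : DQ.R →+* A))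
    (φ' : DQ.R →ₐ[𝒪] A) (hφ' : IsLocalHom (φ' : DQ.R →+* A))
    (h : (ofMat (pushModel U φ') (matCont_pushModel U φ' hφ')).IsEquiv
      (ofMat (pushModel U φ) (matCont_pushModel U φ hφ))) :
    (DQ.ρ.baseChangeAlong (φ' : DQ.R →+* A) hφ').IsEquiv
      (DQ.ρ.baseChangeAlong (φ : DQ.R →+* A) hφ) := by
  obtain ⟨e₁⟩ := baseChangeAlong_isEquiv_pushModel U φ' hφ'
  obtain ⟨e₂⟩ := baseChangeAlong_isEquiv_pushModel U φ hφ
  obtain ⟨e⟩ := h
  exact ⟨(e₁.trans e).trans e₂.symm⟩

end Fermat.Agent.S56.Tan.Univ
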